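import Fermat.Agent.S28.Ana.Basic

/-!
# S28, Part A: arithmetic of the exponents `r_d = φ(N)[d = 1] - d μ(N/d)`, II.
INTERFACE (statements frozen).
-/

set_option autoImplicit false

noncomputable section

namespace Fermat.Agent.S28

open Fermat.Agent.S24

namespace ArithLeAux

/-- Euler's totient as an integer-valued arithmetic function. -/
def phiZ : ArithmeticFunction ℤ := ⟨fun n => (n.totient : ℤ), by simp⟩

/-- `n ↦ n φ(n)`. -/
def hZ : ArithmeticFunction ℤ := ⟨fun n => (n : ℤ) * (n.totient : ℤ), by simp⟩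

/-- `n ↦ n`. -/
def idZ : ArithmeticFunction ℤ := ⟨fun n => (n : ℤ), by simp⟩

/-- `n ↦ n²`. -/
def sqZ : ArithmeticFunction ℤ := ⟨fun n => (n : ℤ) * (n : ℤ), by simp⟩

theorem phiZ_apply (n : ℕ) : phiZ n = (n.totient : ℤ) := rfl
theorem hZ_apply (n : ℕ) : hZ n = (n : ℤ) * (n.totient : ℤ) := rfl
theorem idZ_apply (n : ℕ) : idZ n = (n : ℤ) := rfl
theorem sqZ_apply (n : ℕ) : sqZ n = (n : ℤ) * (n : ℤ) := rfl

theorem zeta_mul_phiZ :
    ((ArithmeticFunction.zeta : ArithmeticFunction ℕ) : ArithmeticFunction ℤ) * phiZ = idZ := by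
  ext n
  rw [ArithmeticFunction.coe_zeta_mul_apply, idZ_apply]
  simp only [phiZ_apply]
  rw [← Nat.cast_sum, Nat.sum_totient]

theorem idZ_mul_hZ : idZ * hZ = sqZ := by
  ext n
  rw [ArithmeticFunction.mul_apply, sqZ_apply]
  have h1 : ∀ x ∈ n.divisorsAntidiagonal,
      idZ x.1 * hZ x.2 = (n : ℤ) * (x.2.totient : ℤ) := by
    intro x hx
    rw [idZ_apply, hZ_apply, ← mul_assoc]
    have h2 : x.1 * x.2 = n := (Nat.mem_divisorsAntidiagonal.mp hx).1
    rw [← h2]
    push_cast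
    ring
  rw [Finset.sum_congr rfl h1, ← Finset.mul_sum,
    Nat.sum_divisorsAntidiagonal' (fun _ y => (y.totient : ℤ)), ← Nat.cast_sum, Nat.sum_totient]

theorem sqZ_mul_moebius : sqZ * (ArithmeticFunction.moebius : ArithmeticFunction ℤ) = phiZ * hZ := by
  rw [← idZ_mul_hZ, ← zeta_mul_phiZ]
  calc ((ArithmeticFunction.zeta : ArithmeticFunction ℕ) : ArithmeticFunction ℤ) * phiZ * hZ *
        ArithmeticFunction.moebius
      = (((ArithmeticFunction.zeta : ArithmeticFunction ℕ) : ArithmeticFunction ℤ) *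
          ArithmeticFunction.moebius) * (phiZ * hZ) := by ring
    _ = phiZ * hZ := by rw [ArithmeticFunction.coe_zeta_mul_moebius, one_mul]

theorem totient_le (N : ℕ) (hN : N ≠ 0) :
    (N.totient : ℤ) ≤ (sqZ * (ArithmeticFunction.moebius : ArithmeticFunction ℤ)) N := by
  rw [sqZ_mul_moebius, ArithmeticFunction.mul_apply]
  have hmem : (N, 1) ∈ N.divisorsAntidiagonal := by
    rw [Nat.mem_divisorsAntidiagonal]
    exact ⟨mul_one N, hN⟩
  have hnn : ∀ x ∈ N.divisorsAntidiagonal, (0 : ℤ) ≤ phiZ x.1 * hZ x.2 := by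
    intro x _
    rw [phiZ_apply, hZ_apply]
    positivity
  have h := Finset.single_le_sum hnn hmem
  simpa [phiZ_apply, hZ_apply] using h

theorem sum_sq_moebius (N : ℕ) :
    ∑ d ∈ N.divisors, (d : ℤ) * ((d : ℤ) * ArithmeticFunction.moebius (N / d)) =
      (sqZ * (ArithmeticFunction.moebius : ArithmeticFunction ℤ)) N := by
  rw [ArithmeticFunction.mul_apply,
    Nat.sum_divisorsAntidiagonal (fun x y => sqZ x * ArithmeticFunction.moebius y)]
  refine Finset.sum_congr rfl ?_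
  intro d _
  rw [sqZ_apply, mul_assoc]

end ArithLeAux

/-- `∑_{d ∣ N} d r_d = φ(N) - J₂(N) ≤ 0` (the eta-quotient has no zero at `∞`). -/
theorem sum_mul_rExp_le (N : ℕ) [NeZero N] : ∑ d ∈ N.divisors, (d : ℤ) * rExp N d ≤ 0 := by
  have h1 : ∑ d ∈ N.divisors, (d : ℤ) * rExp N d =
      ∑ d ∈ N.divisors, ((if d = 1 then (N.totient : ℤ) else 0) -
        (d : ℤ) * ((d : ℤ) * ArithmeticFunction.moebius (N / d))) := by
    refine Finset.sum_congr rfl ?_
    intro d _
    unfold rExp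
    split_ifs with h
    · subst h
      push_cast
      ring
    · ring
  have h1mem : 1 ∈ N.divisors := Nat.one_mem_divisors.mpr (NeZero.ne N)
  rw [h1, Finset.sum_sub_distrib, Finset.sum_ite_eq' N.divisors 1, if_pos h1mem,
    ArithLeAux.sum_sq_moebius]
  have := ArithLeAux.totient_le N (NeZero.ne N)
  omega

end Fermat.Agent.S28
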