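import Fermat.Agent.S28.Ana.Ring

/-!
# S28, Part A: the characteristic polynomial of an equivariant family of pairs.
INTERFACE (statements frozen).

For a family `x_i` (`i ∈ SL₂(ℤ)/Γ₀(N)`) with `x_i(ε z) = x_{ε⁻¹ i}(z)`, the coefficients of
`∏_i (X - x_i)` are `SL₂(ℤ)`-invariant pairs, hence polynomials in `j` over `ℚ̄`
(`exists_poly_of_pFst_invariant`).  Pattern: S24 `CharPolyAux.polyNice_map_smul`,
`coeff_polyNice_smul`, `exists_charpoly` (`Ana/Degree/CharPoly.lean`).
-/

set_option autoImplicit false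

noncomputable section

namespace Fermat.Agent.S28

open Fermat.Agent.S24 ModularCurve UpperHalfPlane
open scoped MatrixGroups Manifold

namespace FamProdAux

/-- Evaluation of the function of a pair at a point, as a ring homomorphism. -/
def evZ (N : ℕ) [NeZero N] (z : ℍ) : pairRing N →+* ℂ :=
  (Pi.evalRingHom (fun _ : ℍ => ℂ) z).comp (pFst N)

theorem evZ_apply (N : ℕ) [NeZero N] (z : ℍ) (x : pairRing N) :
    evZ N z x = pFst N x z := rfl

/-- The polynomial `∏ᵢ (X - xᵢ)` over the ring of pairs. -/
def polyFam {N : ℕ} [NeZero N] (x : Cosets N → pairRing N) : Polynomial (pairRing N) :=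
  ∏ i ∈ cosetsFinset N, (Polynomial.X - Polynomial.C (x i))

theorem polyFam_map {N : ℕ} [NeZero N] (x : Cosets N → pairRing N) (z : ℍ) :
    (polyFam x).map (evZ N z) =
      ∏ i ∈ cosetsFinset N, (Polynomial.X - Polynomial.C (pFst N (x i) z)) := by
  simp only [polyFam, Polynomial.map_prod, Polynomial.map_sub, Polynomial.map_X,
    Polynomial.map_C, evZ_apply]

theorem polyFam_map_smul {N : ℕ} [NeZero N] (x : Cosets N → pairRing N) (hx : IsEquivFam N x)
    (ε : SL(2, ℤ)) (z : ℍ) :
    (polyFam x).map (evZ N (ε • z)) = (polyFam x).map (evZ N z) := by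
  rw [polyFam_map, polyFam_map]
  simp only [hx ε]
  let _ : Fintype (Cosets N) := cosetsFintype N
  exact Equiv.prod_comp (MulAction.toPerm ε⁻¹)
    (fun i : Cosets N => Polynomial.X - Polynomial.C (pFst N (x i) z))

theorem coeff_polyFam_smul {N : ℕ} [NeZero N] (x : Cosets N → pairRing N)
    (hx : IsEquivFam N x) (k : ℕ) (ε : SL(2, ℤ)) (z : ℍ) :
    pFst N ((polyFam x).coeff k) (ε • z) = pFst N ((polyFam x).coeff k) z := by
  have h := congrArg (fun q => Polynomial.coeff q k) (polyFam_map_smul x hx ε z)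
  simpa only [Polynomial.coeff_map, evZ_apply] using h

theorem exists_coeffPolyFam {N : ℕ} [NeZero N] (x : Cosets N → pairRing N)
    (hx : IsEquivFam N x) (k : ℕ) :
    ∃ P : Polynomial Qb, (polyFam x).coeff k = Polynomial.eval₂ (pC N) (pJ N) P :=
  exists_poly_of_pFst_invariant ((polyFam x).coeff k)
    (fun ε z => coeff_polyFam_smul x hx k ε z)

theorem monic_polyFam {N : ℕ} [NeZero N] (x : Cosets N → pairRing N) :
    (polyFam x).Monic :=
  Polynomial.monic_prod_of_monic _ _ (fun _ _ => Polynomial.monic_X_sub_C _)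

theorem natDegree_polyFam {N : ℕ} [NeZero N] (x : Cosets N → pairRing N) :
    (polyFam x).natDegree = (cosetsFinset N).card := by
  have : Nontrivial (pairRing N) := by
    refine ⟨⟨0, 1, fun h => ?_⟩⟩
    have h1 := congrArg (fun y => pFst N y UpperHalfPlane.I) h
    simp only [map_zero, map_one] at h1
    exact zero_ne_one h1
  exact Polynomial.natDegree_finsetProd_X_sub_C_eq_card _ _

end FamProdAux

theorem exists_poly_prod {N : ℕ} [NeZero N] (x : Cosets N → pairRing N) (hx : IsEquivFam N x) :
    ∃ Φ : Polynomial (Polynomial Qb), Φ.Monic ∧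
      Φ.map (Polynomial.eval₂RingHom (pC N) (pJ N)) =
        ∏ i ∈ cosetsFinset N, (Polynomial.X - Polynomial.C (x i)) := by
  classical
  choose P hP using FamProdAux.exists_coeffPolyFam x hx
  set n : ℕ := (cosetsFinset N).card with hn
  have hdeg : (∑ k ∈ Finset.range n,
      Polynomial.C (P k) * Polynomial.X ^ k : Polynomial (Polynomial Qb)).degree < (n : ℕ) := by
    refine (Polynomial.degree_sum_le _ _).trans_lt ?_
    rw [Finset.sup_lt_iff (WithBot.bot_lt_coe _)]
    intro k hk
    exact (Polynomial.degree_C_mul_X_pow_le k (P k)).trans_lt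
      (by exact_mod_cast Finset.mem_range.mp hk)
  refine ⟨Polynomial.X ^ n + ∑ k ∈ Finset.range n, Polynomial.C (P k) * Polynomial.X ^ k,
    Polynomial.monic_X_pow_add hdeg, ?_⟩
  have h := (FamProdAux.monic_polyFam x).as_sum
  rw [FamProdAux.natDegree_polyFam x] at h
  show _ = FamProdAux.polyFam x
  conv_rhs => rw [h]
  simp only [Polynomial.map_add, Polynomial.map_pow, Polynomial.map_X, Polynomial.map_sum,
    Polynomial.map_mul, Polynomial.map_C, Polynomial.coe_eval₂RingHom]
  congr 1
  refine Finset.sum_congr rfl fun k _ => ?_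
  rw [hP k]

end Fermat.Agent.S28
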