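import Fermat.Agent.S28.Ana.Lead

/-!
# S28, Part A: polynomials in `j(t^N)`; the formal integrality lemma.  INTERFACE (statements frozen).
-/

set_option autoImplicit false

noncomputable section

namespace Fermat.Agent.S28

open Fermat.Agent.S24 ModularCurve

/-- `j(t^N)^k` leads with `t^{-Nk}`. -/
theorem leadsWith_jT_pow (R : Type*) [CommRing R] (N : ℕ) [NeZero N] (k : ℕ) :
    LeadsWith ((qExpand R N (jqModC R)) ^ k) (-((N : ℤ) * (k : ℤ))) 1 := by
  have h0 : LeadsWith (jqModC R ^ k) (-(k : ℤ)) 1 :=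
    ⟨coeff_jqModC_pow_self R k, fun n hn => coeff_jqModC_pow_of_lt R hn⟩
  have h1 := h0.qexp N
  rw [map_pow, mul_neg] at h1
  exact h1

namespace LeadPolyAux

/-- Coefficients of `P(j(t^N))` as a finite sum. -/
theorem coeff_eval (R : Type*) [CommRing R] (N : ℕ) [NeZero N] (P : Polynomial R) (n : ℕ)
    (hn : P.natDegree ≤ n) (m : ℤ) :
    (Polynomial.eval₂ (HahnSeries.C : R →+* LaurentSeries R)
      (qExpand R N (jqModC R)) P).coeff m =
      ∑ i ∈ Finset.range (n + 1), P.coeff i * ((qExpand R N (jqModC R)) ^ i).coeff m := by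
  rw [Polynomial.eval₂_eq_sum_range' _ (Nat.lt_succ_of_le hn), HahnSeries.coeff_sum]
  refine Finset.sum_congr rfl fun i _ => ?_
  rw [HahnSeries.C_mul_eq_smul, HahnSeries.coeff_smul, smul_eq_mul]

theorem coeff_eval_lt (R : Type*) [CommRing R] (N : ℕ) [NeZero N] (P : Polynomial R) (n : ℕ)
    (hn : P.natDegree ≤ n) (m : ℤ) (hm : m < -((N : ℤ) * (n : ℤ))) :
    (Polynomial.eval₂ (HahnSeries.C : R →+* LaurentSeries R)
      (qExpand R N (jqModC R)) P).coeff m = 0 := by
  rw [coeff_eval R N P n hn m]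
  refine Finset.sum_eq_zero fun i hi => ?_
  have hi' : i ≤ n := Nat.lt_succ_iff.mp (Finset.mem_range.mp hi)
  have hNi : (N : ℤ) * (i : ℤ) ≤ (N : ℤ) * (n : ℤ) :=
    mul_le_mul_of_nonneg_left (by exact_mod_cast hi') (by positivity)
  rw [(leadsWith_jT_pow R N i).2 m (by linarith), mul_zero]

theorem coeff_eval_eq (R : Type*) [CommRing R] (N : ℕ) [NeZero N] (P : Polynomial R) (n : ℕ)
    (hn : P.natDegree ≤ n) :
    (Polynomial.eval₂ (HahnSeries.C : R →+* LaurentSeries R)
      (qExpand R N (jqModC R)) P).coeff (-((N : ℤ) * (n : ℤ))) = P.coeff n := by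
  rw [coeff_eval R N P n hn]
  rw [Finset.sum_eq_single n]
  · rw [(leadsWith_jT_pow R N n).1, mul_one]
  · intro i hi hin
    have hi' : i < n := lt_of_le_of_ne (Nat.lt_succ_iff.mp (Finset.mem_range.mp hi)) hin
    have hN : (0 : ℤ) < (N : ℤ) := by exact_mod_cast Nat.pos_of_ne_zero (NeZero.ne N)
    have hNi : (N : ℤ) * (i : ℤ) < (N : ℤ) * (n : ℤ) :=
      mul_lt_mul_of_pos_left (by exact_mod_cast hi') hN
    rw [(leadsWith_jT_pow R N i).2 _ (by linarith), mul_zero]
  · intro h
    exact absurd (Finset.mem_range.mpr (Nat.lt_succ_self n)) h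

theorem coeffMap_C' {R S : Type*} [CommRing R] [CommRing S] (f : R →+* S) (a : R) :
    coeffMap f (HahnSeries.C a : LaurentSeries R) = HahnSeries.C (f a) := by
  rw [HahnSeries.C_apply, HahnSeries.C_apply, coeffMap_single]

theorem poly_mem_aux (W : Subring Qb) (N : ℕ) [NeZero N] :
    ∀ (n : ℕ) (P : Polynomial Qb), P.natDegree ≤ n →
    (∃ H : LaurentSeries ↥W, coeffMap W.subtype H =
      Polynomial.eval₂ (HahnSeries.C : Qb →+* LaurentSeries Qb) (qExpand Qb N (jqModC Qb)) P) →
    ∃ P' : Polynomial ↥W, P'.map W.subtype = P := by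
  intro n
  induction n with
  | zero =>
    rintro P hP ⟨H, hH⟩
    have h1 := coeff_eval_eq Qb N P 0 hP
    rw [← hH, coeffMap_coeff] at h1
    refine ⟨Polynomial.C (H.coeff (-((N : ℤ) * ((0 : ℕ) : ℤ)))), ?_⟩
    rw [Polynomial.map_C, h1]
    exact (Polynomial.eq_C_of_natDegree_le_zero hP).symm
  | succ n ih =>
    rintro P hP ⟨H, hH⟩
    have h1 := coeff_eval_eq Qb N P (n + 1) hP
    rw [← hH, coeffMap_coeff] at h1
    set a' : ↥W := H.coeff (-((N : ℤ) * ((n + 1 : ℕ) : ℤ))) with ha'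
    have hQdeg : (P - Polynomial.C (P.coeff (n + 1)) * Polynomial.X ^ (n + 1)).natDegree ≤ n := by
      rw [Polynomial.natDegree_le_iff_coeff_eq_zero]
      intro m hm
      rw [Polynomial.coeff_sub, Polynomial.coeff_C_mul, Polynomial.coeff_X_pow]
      by_cases hmn : m = n + 1
      · subst hmn; simp
      · rw [if_neg hmn, mul_zero, sub_zero]
        exact Polynomial.coeff_eq_zero_of_natDegree_lt (by omega)
    obtain ⟨Q', hQ'⟩ := ih _ hQdeg
      ⟨H - HahnSeries.C a' * (qExpand ↥W N (jqModC ↥W)) ^ (n + 1), by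
        rw [map_sub, map_mul, map_pow, coeffMap_C', coeffMap_qExpand, coeffMap_jqModC, hH,
          Polynomial.eval₂_sub, Polynomial.eval₂_mul, Polynomial.eval₂_C, Polynomial.eval₂_pow,
          Polynomial.eval₂_X, h1]⟩
    refine ⟨Q' + Polynomial.C a' * Polynomial.X ^ (n + 1), ?_⟩
    rw [Polynomial.map_add, hQ', Polynomial.map_mul, Polynomial.map_pow, Polynomial.map_C,
      Polynomial.map_X, h1]
    ring

end LeadPolyAux

/-- `P(j(t^N))` leads with `lc(P) t^{-N deg P}`. -/
theorem leadsWith_eval_jT (R : Type*) [CommRing R] (N : ℕ) [NeZero N] (P : Polynomial R) :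
    LeadsWith (Polynomial.eval₂ (HahnSeries.C : R →+* LaurentSeries R) (qExpand R N (jqModC R)) P)
      (-((N : ℤ) * (P.natDegree : ℤ))) P.leadingCoeff :=
  ⟨LeadPolyAux.coeff_eval_eq R N P P.natDegree le_rfl,
    fun m hm => LeadPolyAux.coeff_eval_lt R N P P.natDegree le_rfl m hm⟩

/-- **Formal integrality.**  If `P ∈ ℚ̄[Y]` and `P(j(t^N))` has all its coefficients in the subring
`W`, then `P ∈ W[Y]`. -/
theorem poly_mem_of_eval_jT_mem (W : Subring Qb) (N : ℕ) [NeZero N] (P : Polynomial Qb)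
    (h : ∃ H : LaurentSeries ↥W, coeffMap W.subtype H =
      Polynomial.eval₂ (HahnSeries.C : Qb →+* LaurentSeries Qb) (qExpand Qb N (jqModC Qb)) P) :
    ∃ P' : Polynomial ↥W, P'.map W.subtype = P :=
  LeadPolyAux.poly_mem_aux W N P.natDegree P le_rfl h

/-- `coeffMap` of an injective ring hom is injective. -/
theorem coeffMap_injective_of_injective {R S : Type*} [CommRing R] [CommRing S] (f : R →+* S)
    (hf : Function.Injective f) : Function.Injective (coeffMap f) := by
  intro x y hxy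
  ext k
  apply hf
  have := congrArg (fun z : LaurentSeries S => z.coeff k) hxy
  simpa only [coeffMap_coeff] using this

/-- Evaluation at `j(t^N)` commutes with the inclusion `W ⊆ ℚ̄`. -/
theorem coeffMap_comp_evalJT (W : Subring Qb) (N : ℕ) [NeZero N] :
    (coeffMap W.subtype).comp (Polynomial.eval₂RingHom
        (HahnSeries.C : ↥W →+* LaurentSeries ↥W) (qExpand ↥W N (jqModC ↥W))) =
      (Polynomial.eval₂RingHom (HahnSeries.C : Qb →+* LaurentSeries Qb)
        (qExpand Qb N (jqModC Qb))).comp (Polynomial.mapRingHom W.subtype) := by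
  apply Polynomial.ringHom_ext
  · intro a
    rw [RingHom.comp_apply, RingHom.comp_apply, Polynomial.coe_eval₂RingHom,
      Polynomial.coe_eval₂RingHom, Polynomial.coe_mapRingHom, Polynomial.map_C,
      Polynomial.eval₂_C, Polynomial.eval₂_C, LeadPolyAux.coeffMap_C']
  · rw [RingHom.comp_apply, RingHom.comp_apply, Polynomial.coe_eval₂RingHom,
      Polynomial.coe_eval₂RingHom, Polynomial.coe_mapRingHom, Polynomial.map_X,
      Polynomial.eval₂_X, Polynomial.eval₂_X, coeffMap_qExpand, coeffMap_jqModC]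

/-- The same for polynomials in `X` over `W[Y]`. -/
theorem map_map_coeffMap_subtype (W : Subring Qb) (N : ℕ) [NeZero N]
    (Ψ : Polynomial (Polynomial ↥W)) :
    (Ψ.map (Polynomial.eval₂RingHom (HahnSeries.C : ↥W →+* LaurentSeries ↥W)
        (qExpand ↥W N (jqModC ↥W)))).map (coeffMap W.subtype) =
      (Ψ.map (Polynomial.mapRingHom W.subtype)).map
        (Polynomial.eval₂RingHom (HahnSeries.C : Qb →+* LaurentSeries Qb)
          (qExpand Qb N (jqModC Qb))) := by
  rw [Polynomial.map_map, Polynomial.map_map, coeffMap_comp_evalJT]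

end Fermat.Agent.S28
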