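import Fermat.Agent.S28.Ana.UPair
import Fermat.Agent.S28.Ana.FamProd
import Fermat.Agent.S28.Ana.LeadPoly

/-!
# S28, Part A: the characteristic polynomial `Ψ ∈ W[Y][X]` of the eta-quotient.
INTERFACE (statement frozen).

`exists_poly_prod` for the family `xFam hW` gives `Φ ∈ ℚ̄[Y][X]` monic with
`Φ(j, X) = ∏_i (X - x_i)` in `pairRing N`; applying `pSnd` gives
`Φ(j(t^N), X) = ∏_i (X - G_i)` with `G_i ∈ W((t))`, and the formal integrality lemma
`poly_mem_of_eval_jT_mem` shows that the coefficients of `Φ` lie in `W[Y]`.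
-/

set_option autoImplicit false

noncomputable section

namespace Fermat.Agent.S28

open Fermat.Agent.S24 ModularCurve UpperHalfPlane
open scoped MatrixGroups Manifold

namespace CharPolyWAux

/-- `Polynomial.map` of a product of linear factors. -/
theorem map_prod_X_sub_C {R S ι : Type*} [CommRing R] [CommRing S] (f : R →+* S)
    (s : Finset ι) (a : ι → R) :
    (∏ i ∈ s, (Polynomial.X - Polynomial.C (a i))).map f =
      ∏ i ∈ s, (Polynomial.X - Polynomial.C (f (a i))) := by
  rw [Polynomial.map_prod]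
  refine Finset.prod_congr rfl (fun i _ => ?_)
  rw [Polynomial.map_sub, Polynomial.map_X, Polynomial.map_C]

end CharPolyWAux

/-- The characteristic polynomial over `ℚ̄`, in the ring of pairs. -/
theorem exists_PhiQb {N : ℕ} [NeZero N] {W : Subring Qb} (hW : IsGoodRing N W) :
    ∃ Φ : Polynomial (Polynomial Qb), Φ.Monic ∧
      Φ.map (Polynomial.eval₂RingHom (HahnSeries.C : Qb →+* LaurentSeries Qb)
          (qExpand Qb N (jqModC Qb))) =
        ∏ i ∈ cosetsFinset N,
          (Polynomial.X - Polynomial.C (coeffMap W.subtype (GSeries hW (Quotient.out i)⁻¹))) := by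
  obtain ⟨Φ, hmon, hΦ⟩ := exists_poly_prod (xFam hW) (xFam_equiv hW)
  refine ⟨Φ, hmon, ?_⟩
  rw [← map_map_pSnd, hΦ, CharPolyWAux.map_prod_X_sub_C]
  refine Finset.prod_congr rfl (fun i _ => ?_)
  rw [pSnd_xFam]

theorem exists_PsiW {N : ℕ} [NeZero N] {W : Subring Qb} (hW : IsGoodRing N W) :
    ∃ Ψ : Polynomial (Polynomial ↥W), Ψ.Monic ∧
      Ψ.map (Polynomial.eval₂RingHom (HahnSeries.C : ↥W →+* LaurentSeries ↥W)
          (qExpand ↥W N (jqModC ↥W))) =
        ∏ i ∈ cosetsFinset N, (Polynomial.X - Polynomial.C (GSeries hW (Quotient.out i)⁻¹)) := by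
  obtain ⟨Φ, hmon, hΦ⟩ := exists_PhiQb hW
  have hprod : (∏ i ∈ cosetsFinset N,
      (Polynomial.X - Polynomial.C (GSeries hW (Quotient.out i)⁻¹))).map (coeffMap W.subtype) =
      Φ.map (Polynomial.eval₂RingHom (HahnSeries.C : Qb →+* LaurentSeries Qb)
          (qExpand Qb N (jqModC Qb))) := by
    rw [hΦ, CharPolyWAux.map_prod_X_sub_C]
  have hlift : Φ ∈ Polynomial.lifts (Polynomial.mapRingHom W.subtype) := by
    rw [Polynomial.lifts_iff_coeff_lifts]
    intro k
    have hk := congrArg (fun p => Polynomial.coeff p k) hprod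
    simp only [Polynomial.coeff_map, Polynomial.coe_eval₂RingHom] at hk
    obtain ⟨P', hP'⟩ := poly_mem_of_eval_jT_mem W N (Φ.coeff k) ⟨_, hk⟩
    exact ⟨P', hP'⟩
  obtain ⟨Ψ, hΨ, -, hΨmon⟩ := Polynomial.lifts_and_degree_eq_and_monic hlift hmon
  refine ⟨Ψ, hΨmon, ?_⟩
  apply Polynomial.map_injective (coeffMap W.subtype)
    (coeffMap_injective_of_injective _ Subtype.val_injective)
  rw [map_map_coeffMap_subtype, hΨ, hprod]

end Fermat.Agent.S28
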