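import Fermat.Agent.S28.Ana.Basic

/-!
# S28, Part A: arithmetic of the exponents `r_d = φ(N)[d = 1] - d μ(N/d)`, I.
INTERFACE (statements frozen).
-/

set_option autoImplicit false

noncomputable section

namespace Fermat.Agent.S28

open Fermat.Agent.S24

namespace ArithAux

/-- Möbius inversion of `∑_{d ∣ n} φ(d) = n`. -/
theorem sum_mul_moebius (N : ℕ) (hN : 0 < N) :
    ∑ d ∈ N.divisors, (d : ℤ) * ArithmeticFunction.moebius (N / d) = (N.totient : ℤ) := by
  have h := (ArithmeticFunction.sum_eq_iff_sum_mul_moebius_eq (R := ℤ)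
    (f := fun n => (n.totient : ℤ)) (g := fun n => (n : ℤ))).mp
    (fun n _ => by
      have := Nat.sum_totient n
      exact_mod_cast this) N hN
  simp only [Int.cast_id] at h
  rw [← h, Nat.sum_divisorsAntidiagonal'
    (f := fun a b => (ArithmeticFunction.moebius a : ℤ) * (b : ℤ))]
  exact Finset.sum_congr rfl fun d _ => mul_comm _ _

/-- The sum of the `d = 1` indicator terms. -/
theorem sum_ite_one (N : ℕ) (hN : N ≠ 0) (a : ℤ) (F : ℕ → ℤ) :
    ∑ d ∈ N.divisors, (if d = 1 then a else 0) * F d = a * F 1 := by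
  rw [Finset.sum_eq_single 1]
  · simp
  · intro b _ hb
    simp [hb]
  · intro h
    exact absurd (Nat.mem_divisors.mpr ⟨one_dvd N, hN⟩) h

/-- The arithmetic function `n ↦ gcd(c, n)²` (zero at `0`). -/
def gcdSq (c : ℤ) : ArithmeticFunction ℤ :=
  ⟨fun n => if n = 0 then 0 else ((Nat.gcd c.natAbs n : ℕ) : ℤ) ^ 2, by simp⟩

theorem gcdSq_apply (c : ℤ) {n : ℕ} (hn : n ≠ 0) :
    gcdSq c n = ((Nat.gcd c.natAbs n : ℕ) : ℤ) ^ 2 := by
  show (if n = 0 then 0 else ((Nat.gcd c.natAbs n : ℕ) : ℤ) ^ 2) = _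
  rw [if_neg hn]

theorem gcdSq_mult (c : ℤ) : (gcdSq c).IsMultiplicative := by
  refine ⟨?_, ?_⟩
  · rw [gcdSq_apply c one_ne_zero]; simp
  · intro m n hmn
    rcases eq_or_ne m 0 with rfl | hm
    · simp
    rcases eq_or_ne n 0 with rfl | hn
    · simp
    rw [gcdSq_apply c hm, gcdSq_apply c hn, gcdSq_apply c (mul_ne_zero hm hn),
      Nat.Coprime.gcd_mul _ hmn]
    push_cast
    ring

theorem moebius_mul_gcdSq_apply (c : ℤ) (N : ℕ) :
    ((ArithmeticFunction.moebius : ArithmeticFunction ℤ) * gcdSq c) N =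
      ∑ d ∈ N.divisors, ArithmeticFunction.moebius (N / d) *
        ((Nat.gcd c.natAbs d : ℕ) : ℤ) ^ 2 := by
  rw [ArithmeticFunction.mul_apply, Nat.sum_divisorsAntidiagonal'
    (f := fun a b => (ArithmeticFunction.moebius a : ℤ) * gcdSq c b)]
  refine Finset.sum_congr rfl fun d hd => ?_
  rw [gcdSq_apply c (Nat.pos_of_mem_divisors hd).ne']

theorem gcd_prime_pow_succ (a p k : ℕ) (hp : p.Prime) (h : ¬ p ^ (k + 1) ∣ a) :
    Nat.gcd a (p ^ (k + 1)) = Nat.gcd a (p ^ k) := by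
  apply Nat.dvd_antisymm
  · apply Nat.dvd_gcd (Nat.gcd_dvd_left _ _)
    obtain ⟨j, hj, hj'⟩ := (Nat.dvd_prime_pow hp).mp (Nat.gcd_dvd_right a (p ^ (k + 1)))
    rcases Nat.lt_or_ge j (k + 1) with hlt | hge
    · rw [hj']
      exact pow_dvd_pow p (Nat.lt_succ_iff.mp hlt)
    · exfalso
      have : j = k + 1 := le_antisymm hj hge
      rw [this] at hj'
      apply h
      rw [← hj']
      exact Nat.gcd_dvd_left _ _
  · exact Nat.dvd_gcd (Nat.gcd_dvd_left _ _)
      ((Nat.gcd_dvd_right _ _).trans (pow_dvd_pow p (Nat.le_succ k)))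

theorem moebius_mul_gcdSq_prime_pow (c : ℤ) (p k : ℕ) (hp : p.Prime)
    (h : ¬ p ^ (k + 1) ∣ c.natAbs) :
    ((ArithmeticFunction.moebius : ArithmeticFunction ℤ) * gcdSq c) (p ^ (k + 1)) = 0 := by
  rw [moebius_mul_gcdSq_apply, Nat.sum_divisors_prime_pow hp, Finset.sum_range_succ,
    Finset.sum_range_succ, Finset.sum_eq_zero]
  · rw [Nat.div_self (pow_pos hp.pos _), Nat.pow_div (Nat.le_succ k) hp.pos]
    have : k + 1 - k = 1 := by omega
    rw [this, pow_one, ArithmeticFunction.moebius_apply_prime hp,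
      ArithmeticFunction.moebius_apply_one, gcd_prime_pow_succ _ _ _ hp h]
    ring
  · intro i hi
    have hi' : i < k := Finset.mem_range.mp hi
    rw [Nat.pow_div (by omega) hp.pos,
      ArithmeticFunction.moebius_apply_prime_pow hp (by omega), if_neg (by omega), zero_mul]

theorem moebius_mul_gcdSq_eq_zero (c : ℤ) (N : ℕ) (hN : N ≠ 0) (hc : ¬ (N : ℤ) ∣ c) :
    ((ArithmeticFunction.moebius : ArithmeticFunction ℤ) * gcdSq c) N = 0 := by
  have hc' : ¬ N ∣ c.natAbs := by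
    intro h
    exact hc (Int.natCast_dvd.mpr h)
  rw [Nat.dvd_iff_prime_pow_dvd_dvd] at hc'
  simp only [not_forall] at hc'
  obtain ⟨p, k, hp, hk, hk'⟩ := hc'
  have hk0 : k ≠ 0 := by
    rintro rfl
    simp at hk'
  have hle : k ≤ N.factorization p := (hp.pow_dvd_iff_le_factorization hN).mp hk
  obtain ⟨k0, hk0'⟩ : ∃ k0, N.factorization p = k0 + 1 := ⟨N.factorization p - 1, by omega⟩
  have hnd : ¬ p ^ (k0 + 1) ∣ c.natAbs := by
    intro h
    apply hk'
    exact (pow_dvd_pow p (by omega)).trans h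
  have hmul : ((ArithmeticFunction.moebius : ArithmeticFunction ℤ) * gcdSq c).IsMultiplicative :=
    ArithmeticFunction.isMultiplicative_moebius.mul (gcdSq_mult c)
  have hN' : p ^ (k0 + 1) * (N / p ^ (k0 + 1)) = N := by
    rw [← hk0']
    exact Nat.ordProj_mul_ordCompl_eq_self N p
  have hcop : Nat.Coprime (p ^ (k0 + 1)) (N / p ^ (k0 + 1)) := by
    rw [← hk0']
    exact (Nat.coprime_ordCompl hp hN).pow_left _
  rw [← hN', hmul.map_mul_of_coprime hcop, moebius_mul_gcdSq_prime_pow c p k0 hp hnd, zero_mul]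

/-- For `d ∣ N`, with `g = gcd(c, d)`: `d · (g · N/(d/g)) = N g²`. -/
theorem key_nat (N d g : ℕ) (hd : d ∣ N) (hg : g ∣ d) (hd0 : d ≠ 0) :
    d * (g * (N / (d / g))) = N * g ^ 2 := by
  obtain ⟨e, rfl⟩ := hd
  obtain ⟨d', rfl⟩ := hg
  have hg0 : g ≠ 0 := by
    rintro rfl
    simp at hd0
  have hd'0 : d' ≠ 0 := by
    rintro rfl
    simp at hd0
  rw [Nat.mul_div_cancel_left _ (Nat.pos_of_ne_zero hg0)]
  have : g * d' * e / d' = g * e := by
    rw [show g * d' * e = g * e * d' by ring]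
    exact Nat.mul_div_cancel _ (Nat.pos_of_ne_zero hd'0)
  rw [this]
  ring

end ArithAux

/-- `∑_{d ∣ N} r_d = 0` (weight zero). -/
theorem sum_rExp (N : ℕ) [NeZero N] : ∑ d ∈ N.divisors, rExp N d = 0 := by
  have hN : N ≠ 0 := NeZero.ne N
  unfold rExp
  rw [Finset.sum_sub_distrib, ArithAux.sum_mul_moebius N (Nat.pos_of_ne_zero hN)]
  have := ArithAux.sum_ite_one N hN (N.totient : ℤ) (fun _ => 1)
  simp only [mul_one] at this
  rw [this, sub_self]

/-- The order of the eta-quotient at a cusp other than `∞`-like ones: for `N ∤ c`,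
`∑_{d ∣ N} r_d · a_d · N/δ_d = N φ(N)` where `a_d = gcd(c, d)`, `δ_d = d / a_d`
(the sum is `N·(φ(N) - ∑_{d ∣ N} μ(N/d) gcd(c,d)²)` and the inner sum vanishes). -/
theorem sum_rExp_mul (N : ℕ) [NeZero N] (c : ℤ) (hc : ¬ (N : ℤ) ∣ c) :
    ∑ d ∈ N.divisors, rExp N d *
        (((Int.gcd c (d : ℤ) : ℕ) : ℤ) * ((N / (d / Int.gcd c (d : ℤ)) : ℕ) : ℤ)) =
      (N : ℤ) * (N.totient : ℤ) := by
  have hN : N ≠ 0 := NeZero.ne N
  unfold rExp
  simp only [sub_mul]
  rw [Finset.sum_sub_distrib, ArithAux.sum_ite_one N hN (N.totient : ℤ)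
    (fun d => ((Int.gcd c (d : ℤ) : ℕ) : ℤ) * ((N / (d / Int.gcd c (d : ℤ)) : ℕ) : ℤ))]
  have h2 : ∑ d ∈ N.divisors, (d : ℤ) * ArithmeticFunction.moebius (N / d) *
      (((Int.gcd c (d : ℤ) : ℕ) : ℤ) * ((N / (d / Int.gcd c (d : ℤ)) : ℕ) : ℤ)) =
      (N : ℤ) * ((ArithmeticFunction.moebius : ArithmeticFunction ℤ) * ArithAux.gcdSq c) N := by
    rw [ArithAux.moebius_mul_gcdSq_apply, Finset.mul_sum]
    refine Finset.sum_congr rfl fun d hd => ?_
    have hd' := Nat.mem_divisors.mp hd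
    have hd0 : d ≠ 0 := (Nat.pos_of_mem_divisors hd).ne'
    have hgcd : Int.gcd c (d : ℤ) = Nat.gcd c.natAbs d := by
      simp [Int.gcd]
    rw [hgcd]
    have key := ArithAux.key_nat N d (Nat.gcd c.natAbs d) hd'.1 (Nat.gcd_dvd_right _ _) hd0
    have keyZ : (d : ℤ) * (((Nat.gcd c.natAbs d : ℕ) : ℤ) *
        ((N / (d / Nat.gcd c.natAbs d) : ℕ) : ℤ)) = (N : ℤ) * ((Nat.gcd c.natAbs d : ℕ) : ℤ) ^ 2 := by
      exact_mod_cast key
    linear_combination (ArithmeticFunction.moebius (N / d) : ℤ) * keyZ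
  rw [h2, ArithAux.moebius_mul_gcdSq_eq_zero c N hN hc]
  simp [mul_comm]

end Fermat.Agent.S28
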