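import Fermat.Agent.S28.Ana.GExp
import Fermat.Agent.S28.Ana.Arith

/-!
# S28, Part A: the leading term of `G_g`.  INTERFACE (statements frozen).
-/

set_option autoImplicit false

noncomputable section

namespace Fermat.Agent.S28

open Fermat.Agent.S24 ModularCurve UpperHalfPlane
open scoped MatrixGroups Manifold

namespace GLeadAux

/-- The leading coefficient (a unit of `W`) of the factor of `G_g` attached to the divisor `d`. -/
def leadUnit {N : ℕ} {W : Subring Qb} (hW : IsGoodRing N W) (g : SL(2, ℤ)) (d : ℕ) : (↥W)ˣ :=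
  natUnit hW (triD d g) ^ (-12 * rExp N d) * (zetaW hW (triD d g) ^ triB d g) ^ rExp N d

/-- The exponent `a_d · N/δ_d` is nonzero for `d ∣ N`. -/
theorem exp_ne_zero {N : ℕ} [NeZero N] (g : SL(2, ℤ)) {d : ℕ} (hd : d ∈ N.divisors) :
    triA d g * (N / triD d g) ≠ 0 := by
  have hdN : d ∣ N := Nat.dvd_of_mem_divisors hd
  have hd0 : d ≠ 0 := fun h0 => NeZero.ne N (Nat.eq_zero_of_zero_dvd (h0 ▸ hdN))
  have : NeZero d := ⟨hd0⟩
  have hA : 0 < triA d g := triA_pos d g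
  have hD : 0 < triD d g := triD_pos d g
  have hDN : triD d g ∣ N := (triD_dvd d g).trans hdN
  have hNpos : 0 < N := Nat.pos_of_ne_zero (NeZero.ne N)
  have hq : 0 < N / triD d g := Nat.div_pos (Nat.le_of_dvd hNpos hDN) hD
  exact Nat.ne_of_gt (Nat.mul_pos hA hq)

/-- The leading term of the factor of `G_g` attached to a divisor `d` of `N`. -/
theorem factor_leadsWith {N : ℕ} [NeZero N] {W : Subring Qb} (hW : IsGoodRing N W)
    (g : SL(2, ℤ)) {d : ℕ} (hd : d ∈ N.divisors) :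
    LeadsWith
      (HahnSeries.C (((natUnit hW (triD d g) ^ (-12 * rExp N d) : (↥W)ˣ) : ↥W)) *
        affSeries (zetaW hW (triD d g) ^ triB d g) (triA d g * (N / triD d g))
          (coeffMap (Int.castRingHom ↥W) (deltaPow (rExp N d))))
      (rExp N d * ((triA d g : ℤ) * ((N / triD d g : ℕ) : ℤ)))
      ((leadUnit hW g d : (↥W)ˣ) : ↥W) := by
  have h1 : LeadsWith (coeffMap (Int.castRingHom ↥W) (deltaPow (rExp N d))) (rExp N d)
      ((Int.castRingHom ↥W) 1) :=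
    (deltaPow_leadsWith (rExp N d)).cmap (Int.castRingHom ↥W)
  have h2 := affSeries_leadsWith (zetaW hW (triD d g) ^ triB d g)
    (triA d g * (N / triD d g)) (exp_ne_zero g hd) h1
  have h3 := (leadsWith_C (((natUnit hW (triD d g) ^ (-12 * rExp N d) : (↥W)ˣ) : ↥W))).mul h2
  have hm : (0 : ℤ) + ((triA d g * (N / triD d g) : ℕ) : ℤ) * rExp N d
      = rExp N d * ((triA d g : ℤ) * ((N / triD d g : ℕ) : ℤ)) := by
    push_cast
    ring
  have hc : ((natUnit hW (triD d g) ^ (-12 * rExp N d) : (↥W)ˣ) : ↥W) *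
      ((((zetaW hW (triD d g) ^ triB d g) ^ rExp N d : (↥W)ˣ) : ↥W) * (Int.castRingHom ↥W) 1)
      = ((leadUnit hW g d : (↥W)ˣ) : ↥W) := by
    rw [map_one, mul_one]
    rfl
  rw [hm, hc] at h3
  exact h3

end GLeadAux

/-- `G_g` leads with a unit of `W` in degree `∑_{d ∣ N} r_d · a_d · N/δ_d`. -/
theorem GSeries_leadsWith {N : ℕ} [NeZero N] {W : Subring Qb} (hW : IsGoodRing N W)
    (g : SL(2, ℤ)) :
    ∃ c : (↥W)ˣ, LeadsWith (GSeries hW g)
      (∑ d ∈ N.divisors, rExp N d * ((triA d g : ℤ) * ((N / triD d g : ℕ) : ℤ))) (c : ↥W) := by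
  refine ⟨∏ d ∈ N.divisors, GLeadAux.leadUnit hW g d, ?_⟩
  rw [Units.coe_prod]
  exact LeadsWith.finset_prod N.divisors _ _ _ (fun d hd => GLeadAux.factor_leadsWith hW g hd)

/-- For `g ∉ Γ₀(N)`, `G_g` leads with a unit of `W` in degree `N φ(N) > 0`
(from `GSeries_leadsWith` and `sum_rExp_mul`). -/
theorem GSeries_of_not_mem {N : ℕ} [NeZero N] {W : Subring Qb} (hW : IsGoodRing N W)
    (g : SL(2, ℤ)) (hg : g ∉ CongruenceSubgroup.Gamma0 N) :
    (∀ m : ℤ, m ≤ 0 → (GSeries hW g).coeff m = 0) ∧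
      ∃ m : ℤ, IsUnit ((GSeries hW g).coeff m) := by
  obtain ⟨c, hc⟩ := GSeries_leadsWith hW g
  have hdvd : ¬ (N : ℤ) ∣ g 1 0 := by
    intro h
    apply hg
    rw [CongruenceSubgroup.Gamma0_mem]
    exact (ZMod.intCast_zmod_eq_zero_iff_dvd (g 1 0) N).2 h
  have hsum : (∑ d ∈ N.divisors, rExp N d * ((triA d g : ℤ) * ((N / triD d g : ℕ) : ℤ)))
      = (N : ℤ) * (N.totient : ℤ) := sum_rExp_mul N (g 1 0) hdvd
  have hNpos : 0 < N := Nat.pos_of_ne_zero (NeZero.ne N)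
  have hpos : (0 : ℤ) <
      ∑ d ∈ N.divisors, rExp N d * ((triA d g : ℤ) * ((N / triD d g : ℕ) : ℤ)) := by
    rw [hsum]
    have h1 : (0 : ℤ) < (N : ℤ) := by exact_mod_cast hNpos
    have h2 : (0 : ℤ) < (N.totient : ℤ) := by exact_mod_cast Nat.totient_pos.2 hNpos
    exact mul_pos h1 h2
  refine ⟨fun m hm => hc.coeff_eq_zero_of_le hpos m hm,
    ⟨∑ d ∈ N.divisors, rExp N d * ((triA d g : ℤ) * ((N / triD d g : ℕ) : ℤ)), ?_⟩⟩
  rw [hc.1]
  exact c.isUnit

end Fermat.Agent.S28
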