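import Fermat.Agent.S28.Ana.Ring

/-!
# S28, Part A: Lagrange interpolation for equivariant families of pairs.
INTERFACE (statements frozen).

For families `x_i`, `y_i` (`i ∈ SL₂(ℤ)/Γ₀(N)`) with `x_i(ε z) = x_{ε⁻¹ i}(z)`,
`y_i(ε z) = y_{ε⁻¹ i}(z)`, the coefficients of `L = ∑_i y_i ∏_{k ≠ i} (X - x_k)` are
`SL₂(ℤ)`-invariant pairs, hence polynomials in `j` over `ℚ̄` (`exists_poly_of_pFst_invariant`).
Moreover `L(x_i) = y_i · Π'(x_i)` for `Π = ∏_k (X - x_k)`.
-/

set_option autoImplicit false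

noncomputable section

namespace Fermat.Agent.S28

open Fermat.Agent.S24 ModularCurve UpperHalfPlane
open scoped MatrixGroups Manifold

namespace FamLagAux

/-- Reindexing the Lagrange sum along a permutation of the index type. -/
theorem perm_sum {ι A : Type*} [DecidableEq ι] [CommRing A] (s : Finset ι) (hs : ∀ i, i ∈ s)
    (σ : Equiv.Perm ι) (a b : ι → A) :
    ∑ i ∈ s, Polynomial.C (b (σ i)) *
        ∏ k ∈ s.erase i, (Polynomial.X - Polynomial.C (a (σ k))) =
      ∑ i ∈ s, Polynomial.C (b i) *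
        ∏ k ∈ s.erase i, (Polynomial.X - Polynomial.C (a k)) := by
  refine Finset.sum_equiv σ (fun i => by simp [hs]) ?_
  intro i _
  congr 1
  refine Finset.prod_equiv σ ?_ (fun _ _ => rfl)
  intro k
  simp [hs]

/-- Evaluation of a pair at a point of the upper half plane, as a ring hom. -/
def evPt (N : ℕ) [NeZero N] (z : ℍ) : pairRing N →+* ℂ :=
  (Pi.evalRingHom (fun _ : ℍ => ℂ) z).comp (pFst N)

theorem evPt_apply (N : ℕ) [NeZero N] (z : ℍ) (p : pairRing N) : evPt N z p = pFst N p z := rfl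

theorem map_evPt {N : ℕ} [NeZero N] [DecidableEq (Cosets N)] (x y : Cosets N → pairRing N)
    (z : ℍ) :
    (∑ i ∈ cosetsFinset N, Polynomial.C (y i) *
        ∏ k ∈ (cosetsFinset N).erase i, (Polynomial.X - Polynomial.C (x k))).map (evPt N z) =
      ∑ i ∈ cosetsFinset N, Polynomial.C (pFst N (y i) z) *
        ∏ k ∈ (cosetsFinset N).erase i, (Polynomial.X - Polynomial.C (pFst N (x k) z)) := by
  simp only [Polynomial.map_sum, Polynomial.map_mul, Polynomial.map_prod, Polynomial.map_sub,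
    Polynomial.map_X, Polynomial.map_C, evPt_apply]

theorem map_evPt_smul {N : ℕ} [NeZero N] [DecidableEq (Cosets N)] (x y : Cosets N → pairRing N)
    (hx : IsEquivFam N x) (hy : IsEquivFam N y) (ε : SL(2, ℤ)) (z : ℍ) :
    (∑ i ∈ cosetsFinset N, Polynomial.C (y i) *
        ∏ k ∈ (cosetsFinset N).erase i, (Polynomial.X - Polynomial.C (x k))).map
          (evPt N (ε • z)) =
      (∑ i ∈ cosetsFinset N, Polynomial.C (y i) *
        ∏ k ∈ (cosetsFinset N).erase i, (Polynomial.X - Polynomial.C (x k))).map (evPt N z) := by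
  rw [map_evPt, map_evPt]
  have h := perm_sum (cosetsFinset N) (mem_cosetsFinset N) (MulAction.toPerm ε⁻¹)
    (fun k => pFst N (x k) z) (fun i => pFst N (y i) z)
  simp only [MulAction.toPerm_apply] at h
  rw [← h]
  refine Finset.sum_congr rfl (fun i _ => ?_)
  rw [hy ε i z]
  congr 1
  refine Finset.prod_congr rfl (fun k _ => ?_)
  rw [hx ε k z]

end FamLagAux

theorem exists_poly_lagrange {N : ℕ} [NeZero N] [DecidableEq (Cosets N)]
    (x y : Cosets N → pairRing N)
    (hx : IsEquivFam N x) (hy : IsEquivFam N y) :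
    ∃ Q : Polynomial (Polynomial Qb),
      Q.map (Polynomial.eval₂RingHom (pC N) (pJ N)) =
        ∑ i ∈ cosetsFinset N, Polynomial.C (y i) *
          ∏ k ∈ (cosetsFinset N).erase i, (Polynomial.X - Polynomial.C (x k)) := by
  set L : Polynomial (pairRing N) := ∑ i ∈ cosetsFinset N, Polynomial.C (y i) *
    ∏ k ∈ (cosetsFinset N).erase i, (Polynomial.X - Polynomial.C (x k)) with hL
  have hinv : ∀ (n : ℕ) (g : SL(2, ℤ)) (z : ℍ),
      pFst N (L.coeff n) (g • z) = pFst N (L.coeff n) z := by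
    intro n g z
    have h := congrArg (fun p : Polynomial ℂ => p.coeff n)
      (FamLagAux.map_evPt_smul x y hx hy g z)
    simp only [Polynomial.coeff_map, FamLagAux.evPt_apply] at h
    exact h
  choose P hP using fun n : ℕ => exists_poly_of_pFst_invariant (L.coeff n) (hinv n)
  refine ⟨∑ k ∈ Finset.range (L.natDegree + 1), Polynomial.C (P k) * Polynomial.X ^ k, ?_⟩
  rw [Polynomial.map_sum]
  conv_rhs => rw [Polynomial.as_sum_range_C_mul_X_pow L]
  refine Finset.sum_congr rfl (fun k _ => ?_)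
  rw [Polynomial.map_mul, Polynomial.map_pow, Polynomial.map_X, Polynomial.map_C,
    Polynomial.coe_eval₂RingHom, ← hP k]

/-- `L(x_{i₀}) = y_{i₀} · Π'(x_{i₀})` (pure algebra, any commutative ring). -/
theorem eval_lagrange {A : Type*} [CommRing A] {ι : Type*} [DecidableEq ι] (s : Finset ι)
    (x y : ι → A) (i₀ : ι) (hi₀ : i₀ ∈ s) :
    Polynomial.eval (x i₀) (∑ i ∈ s, Polynomial.C (y i) *
        ∏ k ∈ s.erase i, (Polynomial.X - Polynomial.C (x k))) =
      y i₀ * Polynomial.eval (x i₀)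
        (Polynomial.derivative (∏ i ∈ s, (Polynomial.X - Polynomial.C (x i)))) := by
  have hz : ∀ i ∈ s, i ≠ i₀ → ∏ k ∈ s.erase i, (x i₀ - x k) = 0 := by
    intro i _ hne
    exact Finset.prod_eq_zero (Finset.mem_erase.mpr ⟨Ne.symm hne, hi₀⟩) (sub_self _)
  rw [Polynomial.derivative_prod_finset]
  simp only [Polynomial.eval_finsetSum, Polynomial.eval_mul, Polynomial.eval_C,
    Polynomial.eval_prod, Polynomial.eval_sub, Polynomial.eval_X, Polynomial.derivative_sub,
    Polynomial.derivative_X, Polynomial.derivative_C, sub_zero, mul_one]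
  rw [Finset.sum_eq_single_of_mem i₀ hi₀ (fun i hi hne => by rw [hz i hi hne, mul_zero]),
    Finset.sum_eq_single_of_mem i₀ hi₀ (fun i hi hne => hz i hi hne)]

end Fermat.Agent.S28
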