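import Fermat.Agent.S28.Ana.UPair
import Fermat.Agent.S28.Ana.FamLag
import Fermat.Agent.S28.Ana.LeadPoly

/-!
# S28, Part A: Lagrange interpolation: `j(q^d) · Ψ'(j, u) = Q_d(j, u)`.
INTERFACE (statement frozen).

In `pairRing N`: `Π = ∏_i (X - x_i)` (`x = xFam hW`) equals `Ψ_{ℚ̄}(j, X)` (apply the injective
`pSnd` and use `hΨ`, `map_map_coeffMap_subtype`, `map_map_pSnd`); `L = ∑_i y_i ∏_{k ≠ i} (X - x_k) = Q(j, X)` (`exists_poly_lagrange`,
`y = yFam N d hd`), and `L(x_{i₀}) = y_{i₀} Π'(x_{i₀})` (`eval_lagrange`).  Apply `pSnd`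
(`pSnd_xFam_coset0`, `pSnd_yFam_coset0`, `pSnd_pEv`, `eval_map_eq_pEv`), then cancel the injective
substitution `qExpand ℚ̄ N` (`qExpand_ev2`, `Defs.lean`).
-/

set_option autoImplicit false

noncomputable section

namespace Fermat.Agent.S28

open Fermat.Agent.S24 ModularCurve UpperHalfPlane
open scoped MatrixGroups Manifold

theorem exists_lagrange {N : ℕ} [NeZero N] {W : Subring Qb} (hW : IsGoodRing N W)
    (Ψ : Polynomial (Polynomial ↥W))
    (hΨ : Ψ.map (Polynomial.eval₂RingHom (HahnSeries.C : ↥W →+* LaurentSeries ↥W)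
          (qExpand ↥W N (jqModC ↥W))) =
        ∏ i ∈ cosetsFinset N, (Polynomial.X - Polynomial.C (GSeries hW (Quotient.out i)⁻¹)))
    (d : ℕ) [NeZero d] (hd : d ∣ N) :
    ∃ Q : Polynomial (Polynomial Qb),
      qExpand Qb d (jqModC Qb) *
          ev2 (jqModC Qb) (coeffMap (Int.castRingHom Qb) (uSeries N))
            (Polynomial.derivative (Ψ.map (Polynomial.mapRingHom W.subtype))) =
        ev2 (jqModC Qb) (coeffMap (Int.castRingHom Qb) (uSeries N)) Q := by
  classical
  have hA : ∏ i ∈ cosetsFinset N, (Polynomial.X - Polynomial.C (xFam hW i)) =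
      (Ψ.map (Polynomial.mapRingHom W.subtype)).map
        (Polynomial.eval₂RingHom (pC N) (pJ N)) := by
    apply Polynomial.map_injective (pSnd N) (pSnd_injective N)
    rw [map_map_pSnd, ← map_map_coeffMap_subtype, hΨ, Polynomial.map_prod, Polynomial.map_prod]
    refine Finset.prod_congr rfl fun i _ => ?_
    rw [Polynomial.map_sub, Polynomial.map_sub, Polynomial.map_X, Polynomial.map_X,
      Polynomial.map_C, Polynomial.map_C, pSnd_xFam]
  obtain ⟨Q, hQ⟩ := exists_poly_lagrange (xFam hW) (yFam N d hd) (xFam_equiv hW)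
    (yFam_equiv N d hd)
  have hC := eval_lagrange (cosetsFinset N) (xFam hW) (yFam N d hd) (coset0 N)
    (mem_cosetsFinset N _)
  refine ⟨Q, ?_⟩
  rw [← hQ, hA, Polynomial.derivative_map, eval_map_eq_pEv, eval_map_eq_pEv] at hC
  have h2 := congrArg (pSnd N) hC
  rw [map_mul, pSnd_pEv, pSnd_pEv, pSnd_xFam_coset0, pSnd_yFam_coset0, ← qExpand_ev2,
    ← qExpand_ev2, ← map_mul] at h2
  exact (qExpand_injective N h2).symm

end Fermat.Agent.S28
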