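import Fermat.Agent.S28.Ana.Basic

/-!
# S28, Part A: `Δ(d·gz)` for `g ∈ SL₂(ℤ)`.  INTERFACE (definitions complete, statements frozen).

For `g = (* *; c e) ∈ SL₂(ℤ)` and `d ≥ 1` put `a = gcd(c, d)`, `δ = d / a`.  Then there is
`b ∈ ℤ` with `d·(g z) = γ'·((a z + b)/δ)`, `γ' ∈ SL₂(ℤ)` with bottom row `(c/a, *)`, and hence
`Δ(d·g z) = ((c z + e)/δ)^12 · Δ((a z + b)/δ)`.
(Strengthening of S24 `dmul_smul_triangular`, `Ana/Base/Matrix.lean`; use `disc_smul`,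
`Ana/J/Basic.lean`.)
-/

set_option autoImplicit false

noncomputable section

namespace Fermat.Agent.S28

open Fermat.Agent.S24 ModularCurve UpperHalfPlane
open scoped MatrixGroups Manifold

/-- `a_d = gcd(c, d)` for `g = (* *; c *)`. -/
def triA (d : ℕ) (g : SL(2, ℤ)) : ℕ := Int.gcd (g 1 0) (d : ℤ)

/-- `δ_d = d / a_d`. -/
def triD (d : ℕ) (g : SL(2, ℤ)) : ℕ := d / triA d g

/-- `z ↦ Δ((a z + b)/δ)` (total: junk value unless `a, δ > 0`). -/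
def discAff (a : ℕ) (b : ℤ) (δ : ℕ) (z : ℍ) : ℂ :=
  ModularForm.discriminant (UpperHalfPlane.ofComplex (((a : ℂ) * (z : ℂ) + (b : ℂ)) / (δ : ℂ)))

theorem triA_dvd (d : ℕ) (g : SL(2, ℤ)) : triA d g ∣ d := by
  have h : ((Int.gcd (g 1 0) (d : ℤ) : ℕ) : ℤ) ∣ (d : ℤ) := Int.gcd_dvd_right ..
  exact Int.natCast_dvd_natCast.mp h

theorem triA_pos (d : ℕ) [NeZero d] (g : SL(2, ℤ)) : 0 < triA d g :=
  Nat.pos_of_dvd_of_pos (triA_dvd d g) (Nat.pos_of_ne_zero (NeZero.ne d))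

theorem triA_mul_triD (d : ℕ) (g : SL(2, ℤ)) : triA d g * triD d g = d :=
  Nat.mul_div_cancel' (triA_dvd d g)

theorem triD_dvd (d : ℕ) (g : SL(2, ℤ)) : triD d g ∣ d :=
  ⟨triA d g, by rw [mul_comm]; exact (triA_mul_triD d g).symm⟩

theorem triD_pos (d : ℕ) [NeZero d] (g : SL(2, ℤ)) : 0 < triD d g :=
  Nat.pos_of_dvd_of_pos (triD_dvd d g) (Nat.pos_of_ne_zero (NeZero.ne d))

/-- For `g ∈ Γ₀(N)` and `d ∣ N`: `a_d = d`. -/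
theorem triA_of_mem (N d : ℕ) [NeZero d] (hd : d ∣ N) (g : SL(2, ℤ))
    (hg : g ∈ CongruenceSubgroup.Gamma0 N) : triA d g = d := by
  have hN : (N : ℤ) ∣ g 1 0 :=
    (ZMod.intCast_zmod_eq_zero_iff_dvd _ N).mp (CongruenceSubgroup.Gamma0_mem.mp hg)
  have hdN : (d : ℤ) ∣ g 1 0 := (Int.natCast_dvd_natCast.mpr hd).trans hN
  have h1 : d ∣ triA d g := by
    have h2 : (d : ℤ) ∣ ((Int.gcd (g 1 0) (d : ℤ) : ℕ) : ℤ) := Int.dvd_coe_gcd hdN dvd_rfl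
    exact Int.natCast_dvd_natCast.mp h2
  exact Nat.dvd_antisymm (triA_dvd d g) h1

/-- For `g ∈ Γ₀(N)` and `d ∣ N`: `δ_d = 1`. -/
theorem triD_of_mem (N d : ℕ) [NeZero d] (hd : d ∣ N) (g : SL(2, ℤ))
    (hg : g ∈ CongruenceSubgroup.Gamma0 N) : triD d g = 1 := by
  unfold triD
  rw [triA_of_mem N d hd g hg]
  exact Nat.div_self (Nat.pos_of_ne_zero (NeZero.ne d))

namespace TriangularAux

/-- The imaginary part of `(a z + b)/δ` is positive. -/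
theorem im_aff_pos (a : ℕ) (b : ℤ) (δ : ℕ) (ha : 0 < a) (hδ : 0 < δ) (z : ℍ) :
    0 < ((((a : ℂ) * (z : ℂ) + (b : ℂ)) / (δ : ℂ))).im := by
  have haR : (0 : ℝ) < a := by exact_mod_cast ha
  have hδR : (0 : ℝ) < δ := by exact_mod_cast hδ
  have h1 : ((((a : ℂ) * (z : ℂ) + (b : ℂ)) / (δ : ℂ))).im = (a : ℝ) * z.im / (δ : ℝ) := by
    rw [← Complex.ofReal_natCast δ, Complex.div_ofReal_im]
    simp
  rw [h1]
  exact div_pos (mul_pos haR z.im_pos) hδR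

end TriangularAux

/-- The upper half plane point `(a z + b)/δ` underlying `discAff`. -/
theorem coe_ofComplex_aff (a : ℕ) (b : ℤ) (δ : ℕ) (ha : 0 < a) (hδ : 0 < δ) (z : ℍ) :
    ((UpperHalfPlane.ofComplex (((a : ℂ) * (z : ℂ) + (b : ℂ)) / (δ : ℂ)) : ℍ) : ℂ) =
      ((a : ℂ) * (z : ℂ) + (b : ℂ)) / (δ : ℂ) := by
  rw [UpperHalfPlane.ofComplex_apply_of_im_pos (TriangularAux.im_aff_pos a b δ ha hδ z)]

namespace TriangularAux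

/-- **Triangular decomposition** with explicit bottom row:
`diag(d,1)·g = γ'·(a b; 0 δ)` with `γ' ∈ SL₂(ℤ)`, `a = gcd(g₁₀, d)`, `δ = d / a`. -/
theorem tri_decomp (d : ℕ) [NeZero d] (g : SL(2, ℤ)) :
    ∃ (γ' : SL(2, ℤ)) (b : ℤ),
      γ' 1 0 * (triA d g : ℤ) = g 1 0 ∧ γ' 1 0 * b + γ' 1 1 * (triD d g : ℤ) = g 1 1 ∧
      ∀ z : ℍ, dmul d (g • z) = γ' • (UpperHalfPlane.ofComplex
        ((((triA d g : ℕ) : ℂ) * (z : ℂ) + (b : ℂ)) / ((triD d g : ℕ) : ℂ))) := by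
  have hdet := Matrix24.det_eq g
  have hapos : (0 : ℤ) < (triA d g : ℤ) := by exact_mod_cast triA_pos d g
  have hδ : (d : ℤ) = (triA d g : ℤ) * (triD d g : ℤ) := by
    exact_mod_cast (triA_mul_triD d g).symm
  obtain ⟨R, hR⟩ : ((triA d g : ℕ) : ℤ) ∣ g 1 0 := Int.gcd_dvd_left ..
  have hab : ((triA d g : ℕ) : ℤ) =
      g 1 0 * Int.gcdA (g 1 0) d + d * Int.gcdB (g 1 0) d := Int.gcd_eq_gcd_ab (g 1 0) d
  obtain ⟨A, hA⟩ : ∃ A : ℤ, A = Int.gcdA (g 1 0) d := ⟨_, rfl⟩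
  obtain ⟨B, hB⟩ : ∃ B : ℤ, B = Int.gcdB (g 1 0) d := ⟨_, rfl⟩
  rw [← hA, ← hB] at hab
  obtain ⟨e, he⟩ : ∃ e : ℤ, e = (triA d g : ℤ) := ⟨_, rfl⟩
  obtain ⟨δ, hδdef⟩ : ∃ δ : ℤ, δ = (triD d g : ℤ) := ⟨_, rfl⟩
  rw [← he] at hab hR hapos
  rw [← he, ← hδdef] at hδ
  have hbez0 : R * A + δ * B = 1 := by
    apply mul_left_cancel₀ hapos.ne'
    linear_combination -hab - A * hR - B * hδ
  obtain ⟨x, hx⟩ : ∃ x : ℤ, x = B * g 1 1 := ⟨_, rfl⟩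
  obtain ⟨y, hy⟩ : ∃ y : ℤ, y = A - B * g 0 1 * d := ⟨_, rfl⟩
  have hbez : (δ * g 0 0) * x + R * y = 1 := by
    rw [hx, hy]
    linear_combination hbez0 + δ * B * hdet + δ * B * g 0 1 * hR - R * B * g 0 1 * hδ
  have hdet' : (δ * g 0 0) * x - (-y) * R = 1 := by
    linear_combination hbez
  have c1 : (δ * g 0 0) * e = d * g 0 0 := by
    linear_combination -g 0 0 * hδ
  have c2 : R * e = g 1 0 := by
    linear_combination -hR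
  have c3 : (δ * g 0 0) * (x * d * g 0 1 + y * g 1 1) + (-y) * δ = d * g 0 1 := by
    linear_combination (d * g 0 1) * hbez + y * δ * hdet + y * δ * g 0 1 * hR -
      y * R * g 0 1 * hδ
  have c4 : R * (x * d * g 0 1 + y * g 1 1) + x * δ = g 1 1 := by
    linear_combination g 1 1 * hbez - x * δ * hdet - x * δ * g 0 1 * hR +
      x * R * g 0 1 * hδ
  refine ⟨Matrix24.mkSL (δ * g 0 0) (-y) R x hdet', x * d * g 0 1 + y * g 1 1, ?_, ?_,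
    fun z => ?_⟩
  · show R * (triA d g : ℤ) = g 1 0
    rw [← he]
    exact c2
  · show R * (x * d * g 0 1 + y * g 1 1) + x * (triD d g : ℤ) = g 1 1
    rw [← hδdef]
    exact c4
  · have c1' : ((δ : ℂ) * (g 0 0 : ℂ)) * (e : ℂ) = (d : ℂ) * (g 0 0 : ℂ) := by exact_mod_cast c1
    have c2' : (R : ℂ) * (e : ℂ) = (g 1 0 : ℂ) := by exact_mod_cast c2
    have c3' : ((δ : ℂ) * (g 0 0 : ℂ)) *
        ((x : ℂ) * (d : ℂ) * (g 0 1 : ℂ) + (y : ℂ) * (g 1 1 : ℂ)) +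
        (-(y : ℂ)) * (δ : ℂ) = (d : ℂ) * (g 0 1 : ℂ) := by exact_mod_cast c3
    have c4' : (R : ℂ) * ((x : ℂ) * (d : ℂ) * (g 0 1 : ℂ) + (y : ℂ) * (g 1 1 : ℂ)) +
        (x : ℂ) * (δ : ℂ) = (g 1 1 : ℂ) := by exact_mod_cast c4
    have heC : ((triA d g : ℕ) : ℂ) = (e : ℂ) := by rw [he]; push_cast; rfl
    have hδC : ((triD d g : ℕ) : ℂ) = (δ : ℂ) := by rw [hδdef]; push_cast; rfl
    have hδ0 : (δ : ℂ) ≠ 0 := by
      rw [← hδC]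
      exact Nat.cast_ne_zero.mpr (triD_pos d g).ne'
    apply Matrix24.eq_mkSL_smul
    have hB := Matrix24.coe_smul_mul g z
    rw [coe_ofComplex_aff _ _ _ (triA_pos d g) (triD_pos d g), coe_dmul, heC, hδC]
    push_cast
    have key : (d : ℂ) * ((g • z : ℍ) : ℂ) *
        ((R : ℂ) * ((e : ℂ) * z + ((x : ℂ) * (d : ℂ) * (g 0 1 : ℂ) + (y : ℂ) * (g 1 1 : ℂ))) +
          (x : ℂ) * (δ : ℂ)) =
        ((δ : ℂ) * (g 0 0 : ℂ)) *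
          ((e : ℂ) * z + ((x : ℂ) * (d : ℂ) * (g 0 1 : ℂ) + (y : ℂ) * (g 1 1 : ℂ))) +
          (-(y : ℂ)) * (δ : ℂ) := by
      linear_combination (d : ℂ) * ((g • z : ℍ) : ℂ) * (z : ℂ) * c2' +
        (d : ℂ) * ((g • z : ℍ) : ℂ) * c4' + (d : ℂ) * hB - (z : ℂ) * c1' - c3'
    field_simp
    linear_combination key

end TriangularAux

/-- `Δ(d z + b) = Δ(d z)`. -/
theorem discAff_one (d : ℕ) [NeZero d] (b : ℤ) (z : ℍ) :
    discAff d b 1 z = ModularForm.discriminant (dmul d z) := by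
  have hd : 0 < d := Nat.pos_of_ne_zero (NeZero.ne d)
  have hdet : (1 : ℤ) * 1 - b * 0 = 1 := by ring
  have hsm : UpperHalfPlane.ofComplex (((d : ℂ) * (z : ℂ) + (b : ℂ)) / ((1 : ℕ) : ℂ)) =
      Matrix24.mkSL 1 b 0 1 hdet • dmul d z := by
    apply Matrix24.eq_mkSL_smul
    rw [coe_ofComplex_aff d b 1 hd one_pos z, coe_dmul]
    push_cast
    ring
  unfold discAff
  rw [hsm, disc_smul]
  have h10 : (Matrix24.mkSL 1 b 0 1 hdet) 1 0 = 0 := rfl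
  have h11 : (Matrix24.mkSL 1 b 0 1 hdet) 1 1 = 1 := rfl
  rw [h10, h11]
  simp

/-- `Δ(d·g z) = ((c z + e)/δ)^12 · Δ((a z + b)/δ)`. -/
theorem exists_disc_dmul_smul (d : ℕ) [NeZero d] (g : SL(2, ℤ)) :
    ∃ b : ℤ, ∀ z : ℍ, ModularForm.discriminant (dmul d (g • z)) =
      ((((g 1 0 : ℤ) : ℂ) * (z : ℂ) + ((g 1 1 : ℤ) : ℂ)) / (triD d g : ℂ)) ^ 12 *
        discAff (triA d g) b (triD d g) z := by
  obtain ⟨γ', b, h1, h2, h3⟩ := TriangularAux.tri_decomp d g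
  refine ⟨b, fun z => ?_⟩
  have hδ0 : ((triD d g : ℕ) : ℂ) ≠ 0 := Nat.cast_ne_zero.mpr (triD_pos d g).ne'
  have h1' : ((γ' 1 0 : ℤ) : ℂ) * ((triA d g : ℕ) : ℂ) = ((g 1 0 : ℤ) : ℂ) := by
    exact_mod_cast h1
  have h2' : ((γ' 1 0 : ℤ) : ℂ) * (b : ℂ) + ((γ' 1 1 : ℤ) : ℂ) * ((triD d g : ℕ) : ℂ) =
      ((g 1 1 : ℤ) : ℂ) := by
    exact_mod_cast h2
  have hbase : ((γ' 1 0 : ℤ) : ℂ) * ((UpperHalfPlane.ofComplex
      ((((triA d g : ℕ) : ℂ) * (z : ℂ) + (b : ℂ)) / ((triD d g : ℕ) : ℂ)) : ℍ) : ℂ) +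
      ((γ' 1 1 : ℤ) : ℂ) =
      (((g 1 0 : ℤ) : ℂ) * (z : ℂ) + ((g 1 1 : ℤ) : ℂ)) / (triD d g : ℂ) := by
    rw [coe_ofComplex_aff _ _ _ (triA_pos d g) (triD_pos d g)]
    field_simp
    linear_combination (z : ℂ) * h1' + h2'
  rw [h3 z, disc_smul, hbase]
  rfl

end Fermat.Agent.S28
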