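import Fermat.Agent.S28.Ana.Basic

/-!
# S28, Part A: units of the coefficient ring `W`: roots of unity and the divisors of `N`.
INTERFACE (definitions complete, statements frozen).
-/

set_option autoImplicit false

noncomputable section

namespace Fermat.Agent.S28

open Fermat.Agent.S24 ModularCurve

/-- `e^{2πi/n}` is (the image of) a unit of `W` (roots of unity are algebraic integers; use S24
`exists_root_of_unity`, `Ana/Base/Affine.lean`). -/
theorem exists_zetaW {N : ℕ} {W : Subring Qb} (hW : IsGoodRing N W) (n : ℕ) :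
    ∃ ζ : (↥W)ˣ, n ≠ 0 → φW W (ζ : ↥W) = Complex.exp (2 * Real.pi * Complex.I / (n : ℂ)) := by
  rcases Nat.eq_zero_or_pos n with rfl | hn
  · exact ⟨1, fun h => absurd rfl h⟩
  · have : NeZero n := ⟨hn.ne'⟩
    obtain ⟨ζ, hζ⟩ := exists_root_of_unity n
    have hpow : ζ ^ n = 1 := by
      apply φ.injective
      rw [map_pow, hζ, map_one, ← Complex.exp_nat_mul,
        mul_div_cancel₀ _ (Nat.cast_ne_zero.mpr hn.ne'), Complex.exp_two_pi_mul_I]
    have hint : IsIntegral ℤ ζ := by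
      refine IsIntegral.of_pow hn ?_
      rw [hpow]
      exact isIntegral_one
    have hint' : IsIntegral ℤ (ζ ^ (n - 1)) := hint.pow _
    refine ⟨Units.mkOfMulEqOne ⟨ζ, hW.int ζ hint⟩ ⟨ζ ^ (n - 1), hW.int _ hint'⟩ ?_, fun _ => ?_⟩
    · apply Subtype.ext
      change ζ * ζ ^ (n - 1) = 1
      rw [← pow_succ', Nat.sub_add_cancel hn, hpow]
    · exact hζ

/-- The unit `ζ_n ∈ Wˣ` with `φ(ζ_n) = e^{2πi/n}` (for `n ≠ 0`). -/
def zetaW {N : ℕ} {W : Subring Qb} (hW : IsGoodRing N W) (n : ℕ) : (↥W)ˣ :=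
  (exists_zetaW hW n).choose

theorem zetaW_spec {N : ℕ} {W : Subring Qb} (hW : IsGoodRing N W) (n : ℕ) (hn : n ≠ 0) :
    φW W (zetaW hW n : ↥W) = Complex.exp (2 * Real.pi * Complex.I / (n : ℂ)) :=
  (exists_zetaW hW n).choose_spec hn

theorem zetaW_one {N : ℕ} {W : Subring Qb} (hW : IsGoodRing N W) : zetaW hW 1 = 1 := by
  apply Units.ext
  apply φW_injective W
  rw [zetaW_spec hW 1 one_ne_zero, Nat.cast_one, div_one, Complex.exp_two_pi_mul_I,
    Units.val_one, map_one]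

/-- The divisors of `N` are units of `W`. -/
theorem exists_natUnit {N : ℕ} {W : Subring Qb} (hW : IsGoodRing N W) (δ : ℕ) :
    ∃ v : (↥W)ˣ, δ ∣ N → ((v : ↥W) : Qb) = (δ : Qb) := by
  by_cases hδ : δ ∣ N
  · obtain ⟨k, hk⟩ := hδ
    obtain ⟨y, hyW, hy⟩ := hW.inv
    refine ⟨Units.mkOfMulEqOne ⟨(δ : Qb), natCast_mem W δ⟩
      ⟨(k : Qb) * y, W.mul_mem (natCast_mem W k) hyW⟩ ?_, fun _ => rfl⟩
    apply Subtype.ext
    change (δ : Qb) * ((k : Qb) * y) = 1
    rw [← hy, hk, Nat.cast_mul]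
    ring
  · exact ⟨1, fun h => absurd h hδ⟩

/-- The divisor `δ ∣ N` as a unit of `W`. -/
def natUnit {N : ℕ} {W : Subring Qb} (hW : IsGoodRing N W) (δ : ℕ) : (↥W)ˣ :=
  (exists_natUnit hW δ).choose

theorem natUnit_spec {N : ℕ} {W : Subring Qb} (hW : IsGoodRing N W) (δ : ℕ) (hδ : δ ∣ N) :
    ((natUnit hW δ : ↥W) : Qb) = (δ : Qb) :=
  (exists_natUnit hW δ).choose_spec hδ

theorem φW_natUnit {N : ℕ} {W : Subring Qb} (hW : IsGoodRing N W) (δ : ℕ) (hδ : δ ∣ N) :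
    φW W (natUnit hW δ : ↥W) = (δ : ℂ) := by
  rw [φW_apply, natUnit_spec hW δ hδ, map_natCast]

theorem natUnit_one {N : ℕ} {W : Subring Qb} (hW : IsGoodRing N W) : natUnit hW 1 = 1 := by
  apply Units.ext
  apply Subtype.ext
  rw [natUnit_spec hW 1 (one_dvd N), Nat.cast_one, Units.val_one, Subring.coe_one]

end Fermat.Agent.S28
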