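import Fermat.Agent.S28.Ana.UFun
import Fermat.Agent.S28.Ana.Triangular
import Fermat.Agent.S28.Ana.Units

/-!
# S28, Part A: the `t`-expansion of `Δ((a z + b)/δ)^r`.
INTERFACE (definitions complete, statements frozen).

For `w = (a z + b)/δ`, `δ ∣ N`: `q(w) = ζ_δ^b · t^{a N/δ}` (S24 `qOf_affine`, `Ana/Base/Affine.lean`),
so `Δ(w)^r = ∑ (Δ̂^r)_n ζ_δ^{bn} t^{(a N/δ) n}`.
-/

set_option autoImplicit false

noncomputable section

namespace Fermat.Agent.S28

open Fermat.Agent.S24 ModularCurve UpperHalfPlane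
open scoped MatrixGroups Manifold

/-- `F(ζ q)`: multiply the `n`-th coefficient by `ζ^n`. -/
def twistSeries {R : Type*} [CommRing R] (ζ : Rˣ) (F : LaurentSeries R) : LaurentSeries R :=
  ⟨fun n => ((ζ ^ n : Rˣ) : R) * F.coeff n,
    F.isPWO_support.mono (fun n hn => by
      simp only [Function.mem_support, ne_eq] at hn ⊢
      exact fun h0 => hn (by rw [h0, mul_zero]))⟩

@[simp]
theorem twistSeries_coeff {R : Type*} [CommRing R] (ζ : Rˣ) (F : LaurentSeries R) (n : ℤ) :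
    (twistSeries ζ F).coeff n = ((ζ ^ n : Rˣ) : R) * F.coeff n := rfl

/-- `F(ζ t^e)`. -/
def affSeries {R : Type*} [CommRing R] (ζ : Rˣ) (e : ℕ) (F : LaurentSeries R) : LaurentSeries R :=
  qSub R e (twistSeries ζ F)

theorem affSeries_one {R : Type*} [CommRing R] (e : ℕ) [NeZero e] (F : LaurentSeries R) :
    affSeries 1 e F = qExpand R e F := by
  have htw : twistSeries (1 : Rˣ) F = F := by
    ext n
    rw [twistSeries_coeff, one_zpow, Units.val_one, one_mul]
  unfold affSeries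
  rw [qSub_eq, htw]

theorem affSeries_leadsWith {R : Type*} [CommRing R] (ζ : Rˣ) (e : ℕ) (he : e ≠ 0)
    {F : LaurentSeries R} {m : ℤ} {c : R} (h : LeadsWith F m c) :
    LeadsWith (affSeries ζ e F) ((e : ℤ) * m) (((ζ ^ m : Rˣ) : R) * c) := by
  have : NeZero e := ⟨he⟩
  have htw : LeadsWith (twistSeries ζ F) m (((ζ ^ m : Rˣ) : R) * c) := by
    refine ⟨?_, fun n hn => ?_⟩
    · rw [twistSeries_coeff, h.1]
    · rw [twistSeries_coeff, h.2 n hn, mul_zero]
  unfold affSeries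
  rw [qSub_eq]
  exact LeadsWith.qexp e htw

theorem coeffMap_affSeries {R S : Type*} [CommRing R] [CommRing S] (f : R →+* S) (ζ : Rˣ) (e : ℕ)
    (F : LaurentSeries R) :
    coeffMap f (affSeries ζ e F) = affSeries (Units.map (f : R →* S) ζ) e (coeffMap f F) := by
  have htw : coeffMap f (twistSeries ζ F) =
      twistSeries (Units.map (f : R →* S) ζ) (coeffMap f F) := by
    ext n
    rw [coeffMap_coeff, twistSeries_coeff, twistSeries_coeff, coeffMap_coeff, map_mul,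
      ← map_zpow, Units.coe_map]
    rfl
  unfold affSeries
  by_cases he : e = 0
  · subst he
    have h0R : qSub R 0 = RingHom.id _ := dif_pos rfl
    have h0S : qSub S 0 = RingHom.id _ := dif_pos rfl
    rw [h0R, h0S, RingHom.id_apply, RingHom.id_apply, htw]
  · have : NeZero e := ⟨he⟩
    rw [qSub_eq, qSub_eq, coeffMap_qExpand, htw]

/-- Substitution `q ↦ ζ t^e` in a convergent Laurent expansion. -/
theorem hasSum_affSeries {F : LaurentSeries ℂ} (ζ : ℂˣ) (e : ℕ) (he : e ≠ 0) {t s : ℂ}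
    (ht : t ≠ 0) (h : HasSum (fun n : ℤ => F.coeff n * ((ζ : ℂ) * t ^ e) ^ n) s) :
    HasSum (fun n : ℤ => (affSeries ζ e F).coeff n * t ^ n) s := by
  have : NeZero e := ⟨he⟩
  unfold affSeries
  rw [qSub_eq]
  refine hasSum_qExpand e ht ?_
  have hfun : (fun n : ℤ => (twistSeries ζ F).coeff n * (t ^ e) ^ n) =
      fun n : ℤ => F.coeff n * ((ζ : ℂ) * t ^ e) ^ n := by
    funext n
    rw [twistSeries_coeff, mul_zpow, Units.val_zpow_eq_zpow_val]
    ring
  rw [hfun]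
  exact h

/-- The `t`-expansion of `Δ((a z + b)/δ)^r`, with coefficients in `W`. -/
theorem discAff_zpow_hasTExp {N : ℕ} [NeZero N] {W : Subring Qb} (hW : IsGoodRing N W)
    (a : ℕ) (b : ℤ) (δ : ℕ) (ha : 0 < a) (hδ : 0 < δ) (hδN : δ ∣ N) (r : ℤ) :
    HasTExp N (fun z : ℍ => discAff a b δ z ^ r)
      (coeffMap (φW W) (affSeries (zetaW hW δ ^ b) (a * (N / δ))
        (coeffMap (Int.castRingHom ↥W) (deltaPow r)))) := by
  intro z
  have hNpos : 0 < N := Nat.pos_of_ne_zero (NeZero.ne N)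
  have hquot : 0 < N / δ := Nat.div_pos (Nat.le_of_dvd hNpos hδN) hδ
  have he : a * (N / δ) ≠ 0 := (Nat.mul_pos ha hquot).ne'
  -- the point `w = (a z + b)/δ`
  have hwc := coe_ofComplex_aff a b δ ha hδ z
  -- `q(w) = ζ_δ^b * t^(a N/δ)`
  have hq : qOf (UpperHalfPlane.ofComplex (((a : ℂ) * (z : ℂ) + (b : ℂ)) / (δ : ℂ))) =
      Complex.exp (2 * Real.pi * Complex.I / (δ : ℂ)) ^ b * tOf N z ^ (a * (N / δ)) := by
    have h1 := qOf_affine N (a : ℤ) b (δ : ℤ) (Int.natCast_pos.mpr hδ)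
      (Int.natCast_dvd_natCast.mpr hδN)
      (UpperHalfPlane.ofComplex (((a : ℂ) * (z : ℂ) + (b : ℂ)) / (δ : ℂ))) z
      (by rw [hwc]; push_cast; rfl)
    have h2 : ((a : ℤ) * ((N : ℤ) / (δ : ℤ))) = ((a * (N / δ) : ℕ) : ℤ) := by
      push_cast
      rfl
    rw [h2, zpow_natCast, Int.toNat_natCast] at h1
    exact h1
  have hcomp : (φW W).comp (Int.castRingHom ↥W) = Int.castRingHom ℂ := RingHom.ext_int _ _
  have hζ : ((Units.map ((φW W : ↥W →+* ℂ) : ↥W →* ℂ) (zetaW hW δ ^ b) : ℂˣ) : ℂ) =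
      Complex.exp (2 * Real.pi * Complex.I / (δ : ℂ)) ^ b := by
    rw [map_zpow, Units.val_zpow_eq_zpow_val, Units.coe_map]
    congr 1
    exact zetaW_spec hW δ hδ.ne'
  rw [coeffMap_affSeries, coeffMap_coeffMap, hcomp]
  refine hasSum_affSeries _ (a * (N / δ)) he (tOf_ne_zero N z) ?_
  rw [hζ, ← hq]
  exact deltaPow_hasSum' r _

end Fermat.Agent.S28
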