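import Fermat.Agent.S28.Defs
import Fermat.Agent.S24.Ana.Degree

/-!
# S28, Part A (analytic): common definitions (owner: helper2).  Complete, no proofs missing.
Do not edit without asking helper2.

* `IsGoodRing N W` : `W ⊆ ℚ̄` contains all algebraic integers and `N` is invertible in `W`.
* `φW W : W →+* ℂ` : the restriction of the fixed embedding `φ : ℚ̄ →+* ℂ` (S24).
* `qSub R d` : the substitution `q ↦ q^d` on Laurent series, total in `d` (identity for `d = 0`).
* `LeadsWith G m c` : the Laurent series `G` has coefficient `c` in degree `m` and vanishes below.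
* `rExp N d = φ(N)·[d = 1] - d·μ(N/d)` : the exponents of the eta-quotient.
* `cosetsFinset N` : the finite set of all cosets `SL₂(ℤ)/Γ₀(N)`.
-/

set_option autoImplicit false

noncomputable section

namespace Fermat.Agent.S28

open Fermat.Agent.S24 ModularCurve UpperHalfPlane
open scoped MatrixGroups Manifold

/-- `W ⊆ ℚ̄` contains all algebraic integers, and `N` is invertible in `W`. -/
structure IsGoodRing (N : ℕ) (W : Subring Qb) : Prop where
  int : ∀ x : Qb, IsIntegral ℤ x → x ∈ W
  inv : ∃ y ∈ W, y * (N : Qb) = 1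

/-- The embedding `W → ℂ`. -/
def φW (W : Subring Qb) : ↥W →+* ℂ := φ.comp W.subtype

theorem φW_apply (W : Subring Qb) (x : ↥W) : φW W x = φ (x : Qb) := rfl

theorem φW_injective (W : Subring Qb) : Function.Injective (φW W) :=
  φ.injective.comp Subtype.val_injective

/-- The substitution `q ↦ q^d` on Laurent series, total in `d` (the identity if `d = 0`). -/
def qSub (R : Type*) [CommRing R] (d : ℕ) : LaurentSeries R →+* LaurentSeries R :=
  if h : d = 0 then RingHom.id _ else haveI : NeZero d := ⟨h⟩; qExpand R d

theorem qSub_eq (R : Type*) [CommRing R] (d : ℕ) [NeZero d] : qSub R d = qExpand R d :=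
  dif_neg (NeZero.ne d)

/-- `G` has coefficient `c` in degree `m` and zero coefficients in all degrees `< m`. -/
def LeadsWith {R : Type*} [CommRing R] (G : LaurentSeries R) (m : ℤ) (c : R) : Prop :=
  G.coeff m = c ∧ ∀ n : ℤ, n < m → G.coeff n = 0

/-- The exponents `r_d = φ(N)·[d = 1] - d·μ(N/d)` of the eta-quotient
`U(τ) = ∏_{d ∣ N} Δ(dτ)^{r_d}`. -/
def rExp (N d : ℕ) : ℤ :=
  (if d = 1 then (N.totient : ℤ) else 0) - (d : ℤ) * ArithmeticFunction.moebius (N / d)

/-- A `Fintype` structure on the cosets `SL₂(ℤ)/Γ₀(N)`. -/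
@[reducible]
def cosetsFintype (N : ℕ) [NeZero N] : Fintype (Cosets N) := Fintype.ofFinite _

/-- The finite set of all cosets. -/
def cosetsFinset (N : ℕ) [NeZero N] : Finset (Cosets N) := @Finset.univ _ (cosetsFintype N)

@[simp]
theorem mem_cosetsFinset (N : ℕ) [NeZero N] (i : Cosets N) : i ∈ cosetsFinset N :=
  @Finset.mem_univ _ (cosetsFintype N) i

/-- The identity coset. -/
def coset0 (N : ℕ) : Cosets N := QuotientGroup.mk 1

/-- The chosen representative of the identity coset lies in `Γ₀(N)`. -/
theorem out_coset0_mem (N : ℕ) : Quotient.out (coset0 N) ∈ CongruenceSubgroup.Gamma0 N := by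
  have h : (QuotientGroup.mk (Quotient.out (coset0 N)) : Cosets N) = QuotientGroup.mk 1 :=
    QuotientGroup.out_eq' (coset0 N)
  have h2 := QuotientGroup.eq.mp h
  have h3 := inv_mem h2
  simpa using h3

/-- The chosen representative of a coset other than the identity coset is not in `Γ₀(N)`. -/
theorem out_not_mem_of_ne (N : ℕ) (i : Cosets N) (hi : i ≠ coset0 N) :
    Quotient.out i ∉ CongruenceSubgroup.Gamma0 N := by
  intro h
  apply hi
  have h1 : (QuotientGroup.mk (Quotient.out i) : Cosets N) = i := QuotientGroup.out_eq' i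
  rw [← h1]
  unfold coset0
  rw [QuotientGroup.eq]
  simpa using inv_mem h

end Fermat.Agent.S28
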