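import Fermat.Agent.S28.Ana.Formal

/-!
# S28, Part A: the `q`-expansions of `Δ` and `Δ⁻¹`.  INTERFACE (statements frozen).

Tools (S24, all proved): `disc_eq_qOf_mul`, `norm_qOf_lt_one`, `qOf_ne_zero` (`Ana/J/HasSum.lean`),
`taylorAt` API and `taylorAt_zero_hasSum` (`Ana/Conv/Taylor.lean`), `taylorAt_etaProd`
(`Ana/Conv/Eta.lean`), `tprod_one_sub_pow_ne_zero`, and the pattern of `taylorAt_jNum`,
`jNum_hasSum` (`Ana/J/QExp.lean`) and of `Jfun_hasSum_impl` (`Ana/J/HasSum.lean`).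
-/

set_option autoImplicit false

noncomputable section

namespace Fermat.Agent.S28

open Fermat.Agent.S24 ModularCurve UpperHalfPlane

namespace DeltaBaseAux

/-- The function `q ↦ ∏ (1 - qⁿ)²⁴` is holomorphic on the open unit disc. -/
theorem differentiableOn_etaPow :
    DifferentiableOn ℂ (fun q : ℂ => (∏' n : ℕ, (1 - q ^ (n + 1))) ^ 24) (Metric.ball 0 1) :=
  ModularForm.differentiableOn_tprod_one_sub_pow.pow 24

/-- The function `q ↦ ∏ (1 - qⁿ)⁻²⁴` is holomorphic on the open unit disc. -/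
theorem differentiableOn_etaPowInv :
    DifferentiableOn ℂ (fun q : ℂ => ((∏' n : ℕ, (1 - q ^ (n + 1))) ^ 24)⁻¹)
      (Metric.ball 0 1) := by
  refine DifferentiableOn.inv differentiableOn_etaPow ?_
  intro q hq
  exact pow_ne_zero _ (tprod_one_sub_pow_ne_zero (mem_ball_zero_iff.mp hq))

/-- The Taylor series at `0` of `q ↦ ∏ (1 - qⁿ)²⁴` is the formal `dedekindEtaUnit`. -/
theorem taylorAt_etaPow :
    taylorAt 0 (fun q : ℂ => (∏' n : ℕ, (1 - q ^ (n + 1))) ^ 24) =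
      dedekindEtaUnit.map (Int.castRingHom ℂ) := by
  have hball : Metric.ball (0 : ℂ) 1 ∈ nhds (0 : ℂ) := Metric.ball_mem_nhds 0 one_pos
  have hP : AnalyticAt ℂ (fun q : ℂ => ∏' n : ℕ, (1 - q ^ (n + 1))) 0 :=
    ModularForm.differentiableOn_tprod_one_sub_pow.analyticAt hball
  have h := taylorAt_pow hP 24
  rw [taylorAt_etaProd] at h
  rw [dedekindEtaUnit, map_pow, ← h]
  rfl

/-- The Taylor series at `0` of `q ↦ ∏ (1 - qⁿ)⁻²⁴` is the formal `dedekindEtaUnitInv`. -/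
theorem taylorAt_etaPowInv :
    taylorAt 0 (fun q : ℂ => ((∏' n : ℕ, (1 - q ^ (n + 1))) ^ 24)⁻¹) =
      dedekindEtaUnitInv.map (Int.castRingHom ℂ) := by
  have hball : Metric.ball (0 : ℂ) 1 ∈ nhds (0 : ℂ) := Metric.ball_mem_nhds 0 one_pos
  have hF : AnalyticAt ℂ (fun q : ℂ => (∏' n : ℕ, (1 - q ^ (n + 1))) ^ 24) 0 :=
    differentiableOn_etaPow.analyticAt hball
  have hG : AnalyticAt ℂ (fun q : ℂ => ((∏' n : ℕ, (1 - q ^ (n + 1))) ^ 24)⁻¹) 0 :=
    differentiableOn_etaPowInv.analyticAt hball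
  -- the functional identity `G * F = 1` near `0`
  have hev : ((fun q : ℂ => ((∏' n : ℕ, (1 - q ^ (n + 1))) ^ 24)⁻¹) *
        (fun q : ℂ => (∏' n : ℕ, (1 - q ^ (n + 1))) ^ 24)) =ᶠ[nhds 0] (fun _ => (1 : ℂ)) := by
    filter_upwards [hball] with q hq
    simp only [Pi.mul_apply]
    exact inv_mul_cancel₀ (pow_ne_zero _ (tprod_one_sub_pow_ne_zero (mem_ball_zero_iff.mp hq)))
  have key := taylorAt_congr hev
  rw [taylorAt_mul hG hF, taylorAt_etaPow, taylorAt_const, map_one] at key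
  -- now a formal computation
  have hunit : dedekindEtaUnit.map (Int.castRingHom ℂ) *
      dedekindEtaUnitInv.map (Int.castRingHom ℂ) = 1 := by
    rw [← map_mul, dedekindEtaUnit_mul_inv, map_one]
  calc taylorAt 0 (fun q : ℂ => ((∏' n : ℕ, (1 - q ^ (n + 1))) ^ 24)⁻¹)
      = taylorAt 0 (fun q : ℂ => ((∏' n : ℕ, (1 - q ^ (n + 1))) ^ 24)⁻¹) *
          (dedekindEtaUnit.map (Int.castRingHom ℂ) *
            dedekindEtaUnitInv.map (Int.castRingHom ℂ)) := by rw [hunit, mul_one]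
    _ = dedekindEtaUnitInv.map (Int.castRingHom ℂ) := by rw [← mul_assoc, key, one_mul]

/-- The formal `dedekindEtaUnit` converges on the open unit disc to `∏ (1 - qⁿ)²⁴`. -/
theorem etaPow_hasSum {q : ℂ} (hq : ‖q‖ < 1) :
    HasSum (fun n : ℕ => ((dedekindEtaUnit.coeff n : ℤ) : ℂ) * q ^ n)
      ((∏' n : ℕ, (1 - q ^ (n + 1))) ^ 24) := by
  have h := taylorAt_zero_hasSum differentiableOn_etaPow hq
  rw [taylorAt_etaPow] at h
  simpa [PowerSeries.coeff_map] using h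

/-- The formal `dedekindEtaUnitInv` converges on the open unit disc to `∏ (1 - qⁿ)⁻²⁴`. -/
theorem etaPowInv_hasSum {q : ℂ} (hq : ‖q‖ < 1) :
    HasSum (fun n : ℕ => ((dedekindEtaUnitInv.coeff n : ℤ) : ℂ) * q ^ n)
      (((∏' n : ℕ, (1 - q ^ (n + 1))) ^ 24)⁻¹) := by
  have h := taylorAt_zero_hasSum differentiableOn_etaPowInv hq
  rw [taylorAt_etaPowInv] at h
  simpa [PowerSeries.coeff_map] using h

/-- Coefficients of the formal `Δ̂ = q · dedekindEtaUnit`. -/
theorem deltaHat_coeff (n : ℤ) :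
    deltaHat.coeff n = if n < 1 then 0 else dedekindEtaUnit.coeff (n - 1).toNat := by
  rw [deltaHat, HahnSeries.coeff_single_mul, one_mul]
  split_ifs with h
  · exact ofPowerSeries_coeff_of_neg _ (by omega)
  · obtain ⟨m, hm⟩ := Int.eq_ofNat_of_zero_le (show 0 ≤ n - 1 by omega)
    rw [hm, HahnSeries.ofPowerSeries_apply_coeff, Int.toNat_natCast]

/-- Coefficients of the formal `Δ̂⁻¹ = q⁻¹ · dedekindEtaUnitInv`. -/
theorem deltaHatInv_coeff (n : ℤ) :
    deltaHatInv.coeff n = if n < -1 then 0 else dedekindEtaUnitInv.coeff (n + 1).toNat := by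
  rw [deltaHatInv, HahnSeries.coeff_single_mul, one_mul, sub_neg_eq_add]
  split_ifs with h
  · exact ofPowerSeries_coeff_of_neg _ (by omega)
  · obtain ⟨m, hm⟩ := Int.eq_ofNat_of_zero_le (show 0 ≤ n + 1 by omega)
    rw [hm, HahnSeries.ofPowerSeries_apply_coeff, Int.toNat_natCast]

end DeltaBaseAux

/-- `Δ(w) = ∑ Δ̂_n qⁿ`. -/
theorem deltaHat_hasSum (w : ℍ) :
    HasSum (fun n : ℤ => ((deltaHat.coeff n : ℤ) : ℂ) * qOf w ^ n)
      (ModularForm.discriminant w) := by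
  have hq := norm_qOf_lt_one w
  rw [disc_eq_qOf_mul]
  have h2 := (DeltaBaseAux.etaPow_hasSum hq).mul_left (qOf w)
  have he : Function.Injective (fun m : ℕ => (m : ℤ) + 1) := fun a b h => by
    simpa using h
  have hfun : ((fun n : ℤ => ((deltaHat.coeff n : ℤ) : ℂ) * qOf w ^ n) ∘
        fun m : ℕ => (m : ℤ) + 1) =
      fun m : ℕ => qOf w * (((dedekindEtaUnit.coeff m : ℤ) : ℂ) * qOf w ^ m) := by
    funext m
    simp only [Function.comp]
    rw [DeltaBaseAux.deltaHat_coeff, if_neg (by omega), add_sub_cancel_right, Int.toNat_natCast,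
      zpow_add_one₀ (qOf_ne_zero w), zpow_natCast]
    ring
  rw [← he.hasSum_iff, hfun]
  · exact h2
  · intro n hn
    have hlt : n < 1 := by
      by_contra h
      refine hn ⟨(n - 1).toNat, ?_⟩
      have : ((n - 1).toNat : ℤ) = n - 1 := Int.toNat_of_nonneg (by omega)
      simp only [this]
      ring
    rw [DeltaBaseAux.deltaHat_coeff, if_pos hlt]
    simp

/-- `Δ(w)⁻¹ = ∑ (Δ̂⁻¹)_n qⁿ`. -/
theorem deltaHatInv_hasSum (w : ℍ) :
    HasSum (fun n : ℤ => ((deltaHatInv.coeff n : ℤ) : ℂ) * qOf w ^ n)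
      (ModularForm.discriminant w)⁻¹ := by
  have hq := norm_qOf_lt_one w
  have hq0 := qOf_ne_zero w
  rw [disc_eq_qOf_mul, mul_inv]
  have h2 := (DeltaBaseAux.etaPowInv_hasSum hq).mul_left (qOf w)⁻¹
  have he : Function.Injective (fun m : ℕ => (m : ℤ) - 1) := fun a b h => by
    simpa using h
  have hfun : ((fun n : ℤ => ((deltaHatInv.coeff n : ℤ) : ℂ) * qOf w ^ n) ∘
        fun m : ℕ => (m : ℤ) - 1) =
      fun m : ℕ => (qOf w)⁻¹ * (((dedekindEtaUnitInv.coeff m : ℤ) : ℂ) * qOf w ^ m) := by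
    funext m
    simp only [Function.comp]
    rw [DeltaBaseAux.deltaHatInv_coeff, if_neg (by omega), sub_add_cancel, Int.toNat_natCast,
      zpow_sub_one₀ hq0, zpow_natCast]
    ring
  rw [← he.hasSum_iff, hfun]
  · exact h2
  · intro n hn
    have hlt : n < -1 := by
      by_contra h
      refine hn ⟨(n + 1).toNat, ?_⟩
      have : ((n + 1).toNat : ℤ) = n + 1 := Int.toNat_of_nonneg (by omega)
      simp only [this]
      ring
    rw [DeltaBaseAux.deltaHatInv_coeff, if_pos hlt]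
    simp

end Fermat.Agent.S28
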