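import Fermat.Agent.S28.Ana.DeltaBase

/-!
# S28, Part A: the `q`-expansion of `Δ^r`, `r ∈ ℤ`.  INTERFACE (statements frozen).
From `deltaHat_hasSum`, `deltaHatInv_hasSum` (`Ana/DeltaBase.lean`) by multiplicativity
(S24 `hasSum_laurent_mul`, `Ana/TExp/Mul.lean`; `deltaPow_add`, `Ana/Formal.lean`).
-/

set_option autoImplicit false

noncomputable section

namespace Fermat.Agent.S28

open Fermat.Agent.S24 ModularCurve UpperHalfPlane

namespace DeltaSumAux

/-- The `q`-expansion of `Δ^r` in terms of `coeffMap`, by induction on `r`. -/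
theorem hasSum_coeffMap_deltaPow (r : ℤ) (w : ℍ) :
    HasSum (fun n : ℤ => (coeffMap (Int.castRingHom ℂ) (deltaPow r)).coeff n * qOf w ^ n)
      (ModularForm.discriminant w ^ r) := by
  have hq : qOf w ≠ 0 := qOf_ne_zero w
  have hΔ : ModularForm.discriminant w ≠ 0 := ModularForm.discriminant_ne_zero w
  have h1 : HasSum (fun n : ℤ => (coeffMap (Int.castRingHom ℂ) deltaHat).coeff n * qOf w ^ n)
      (ModularForm.discriminant w) := deltaHat_hasSum w
  have h2 : HasSum (fun n : ℤ => (coeffMap (Int.castRingHom ℂ) deltaHatInv).coeff n * qOf w ^ n)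
      (ModularForm.discriminant w)⁻¹ := deltaHatInv_hasSum w
  induction r using Int.induction_on with
  | zero =>
    rw [deltaPow_zero, map_one, zpow_zero]
    have h := hasSum_single (f := fun n : ℤ => (1 : LaurentSeries ℂ).coeff n * qOf w ^ n)
      (0 : ℤ) (fun n hn => by
        simp [HahnSeries.coeff_one, hn])
    simpa [HahnSeries.coeff_one] using h
  | succ i ih =>
    rw [deltaPow_add, deltaPow_one, map_mul, zpow_add_one₀ hΔ]
    exact hasSum_laurent_mul hq ih h1
  | pred i ih =>
    rw [sub_eq_add_neg, deltaPow_add, deltaPow_neg_one, map_mul, ← sub_eq_add_neg,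
      zpow_sub_one₀ hΔ]
    exact hasSum_laurent_mul hq ih h2

end DeltaSumAux

/-- `Δ(w)^r = ∑ (Δ̂^r)_n qⁿ`. -/
theorem deltaPow_hasSum (r : ℤ) (w : ℍ) :
    HasSum (fun n : ℤ => (((deltaPow r).coeff n : ℤ) : ℂ) * qOf w ^ n)
      (ModularForm.discriminant w ^ r) := by
  exact DeltaSumAux.hasSum_coeffMap_deltaPow r w

/-- The same, in terms of `coeffMap`. -/
theorem deltaPow_hasSum' (r : ℤ) (w : ℍ) :
    HasSum (fun n : ℤ => (coeffMap (Int.castRingHom ℂ) (deltaPow r)).coeff n * qOf w ^ n)
      (ModularForm.discriminant w ^ r) := by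
  exact DeltaSumAux.hasSum_coeffMap_deltaPow r w

end Fermat.Agent.S28
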