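import Fermat.Agent.S28.Ana.Lead

/-!
# S28, Part A: the formal discriminant `Δ̂ = q ∏ (1 - qⁿ)²⁴ ∈ ℤ((q))ˣ` and the formal eta-quotient
`u = ∏_{d ∣ N} Δ̂(q^d)^{r_d}`.  INTERFACE (definitions complete, statements frozen).
-/

set_option autoImplicit false

noncomputable section

namespace Fermat.Agent.S28

open Fermat.Agent.S24 ModularCurve

/-- `Δ̂ = q ∏ (1 - qⁿ)²⁴`. -/
def deltaHat : LaurentSeries ℤ :=
  HahnSeries.single (1 : ℤ) (1 : ℤ) * HahnSeries.ofPowerSeries ℤ ℤ dedekindEtaUnit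

/-- `Δ̂⁻¹ = q⁻¹ ∏ (1 - qⁿ)⁻²⁴`. -/
def deltaHatInv : LaurentSeries ℤ :=
  HahnSeries.single (-1 : ℤ) (1 : ℤ) * HahnSeries.ofPowerSeries ℤ ℤ dedekindEtaUnitInv

theorem deltaHat_mul_inv : deltaHat * deltaHatInv = 1 := by
  unfold deltaHat deltaHatInv
  rw [mul_mul_mul_comm, HahnSeries.single_mul_single, ← map_mul, dedekindEtaUnit_mul_inv,
    map_one, mul_one, add_neg_cancel, mul_one]
  rfl

/-- `Δ̂` as a unit of `ℤ((q))`. -/
def deltaUnit : (LaurentSeries ℤ)ˣ := Units.mkOfMulEqOne deltaHat deltaHatInv deltaHat_mul_inv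

/-- `Δ̂^r` for `r : ℤ`. -/
def deltaPow (r : ℤ) : LaurentSeries ℤ := ((deltaUnit ^ r : (LaurentSeries ℤ)ˣ) : LaurentSeries ℤ)

theorem deltaPow_zero : deltaPow 0 = 1 := by
  unfold deltaPow
  rw [zpow_zero, Units.val_one]

theorem deltaPow_one : deltaPow 1 = deltaHat := by
  unfold deltaPow
  rw [zpow_one]
  rfl

theorem deltaPow_neg_one : deltaPow (-1) = deltaHatInv := by
  unfold deltaPow
  rw [zpow_neg_one]
  rfl

theorem deltaPow_add (r s : ℤ) : deltaPow (r + s) = deltaPow r * deltaPow s := by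
  unfold deltaPow
  rw [zpow_add, Units.val_mul]

theorem deltaHat_leadsWith : LeadsWith deltaHat 1 1 := by
  have h := (leadsWith_single (1 : ℤ) (1 : ℤ)).mul (leadsWith_ofPowerSeries dedekindEtaUnit)
  rw [constantCoeff_dedekindEtaUnit, add_zero, mul_one] at h
  exact h

theorem deltaHatInv_leadsWith : LeadsWith deltaHatInv (-1) 1 := by
  have h := (leadsWith_single (-1 : ℤ) (1 : ℤ)).mul (leadsWith_ofPowerSeries dedekindEtaUnitInv)
  rw [constantCoeff_dedekindEtaUnitInv, add_zero, mul_one] at h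
  exact h

/-- `Δ̂^r = q^r + …`. -/
theorem deltaPow_leadsWith (r : ℤ) : LeadsWith (deltaPow r) r 1 := by
  induction r using Int.induction_on with
  | zero =>
    rw [deltaPow_zero]
    exact leadsWith_one
  | succ i ih =>
    have h := ih.mul deltaHat_leadsWith
    rw [mul_one, ← deltaPow_one, ← deltaPow_add] at h
    exact h
  | pred i ih =>
    have h := ih.mul deltaHatInv_leadsWith
    rw [mul_one, ← deltaPow_neg_one, ← deltaPow_add, ← sub_eq_add_neg] at h
    exact h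

/-- The formal eta-quotient `u = ∏_{d ∣ N} Δ̂(q^d)^{r_d} ∈ ℤ((q))`. -/
def uSeries (N : ℕ) : LaurentSeries ℤ := ∏ d ∈ N.divisors, qSub ℤ d (deltaPow (rExp N d))

/-- `u = q^{∑ d r_d} + …`. -/
theorem uSeries_leadsWith (N : ℕ) [NeZero N] :
    LeadsWith (uSeries N) (∑ d ∈ N.divisors, (d : ℤ) * rExp N d) 1 := by
  have h := LeadsWith.finset_prod N.divisors (fun d => qSub ℤ d (deltaPow (rExp N d)))
    (fun d => (d : ℤ) * rExp N d) (fun _ => (1 : ℤ)) (fun d hd => by
      have : NeZero d := ⟨(Nat.pos_of_mem_divisors hd).ne'⟩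
      rw [qSub_eq]
      exact (deltaPow_leadsWith (rExp N d)).qexp d)
  rw [Finset.prod_const_one] at h
  exact h

end Fermat.Agent.S28
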