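import Fermat.Agent.S28.Ana.USmul
import Fermat.Agent.S28.Ana.AffExp

/-!
# S28, Part A: the `t`-expansion `G_g ∈ W((t))` of `z ↦ U(g z)`.
INTERFACE (definitions complete, statements frozen).

`G_g = ∏_{d ∣ N} δ_d^{-12 r_d} · (Δ̂^{r_d})(ζ_{δ_d}^{b_d} t^{a_d N/δ_d})`.
-/

set_option autoImplicit false

noncomputable section

namespace Fermat.Agent.S28

open Fermat.Agent.S24 ModularCurve UpperHalfPlane
open scoped MatrixGroups Manifold

/-- The `t`-expansion of `z ↦ U(g z)`, with coefficients in `W`. -/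
def GSeries {N : ℕ} {W : Subring Qb} (hW : IsGoodRing N W) (g : SL(2, ℤ)) : LaurentSeries ↥W :=
  ∏ d ∈ N.divisors,
    (HahnSeries.C (((natUnit hW (triD d g) ^ (-12 * rExp N d) : (↥W)ˣ) : ↥W)) *
      affSeries (zetaW hW (triD d g) ^ triB d g) (triA d g * (N / triD d g))
        (coeffMap (Int.castRingHom ↥W) (deltaPow (rExp N d))))

namespace GExpAux

/-- `coeffMap` sends constants to constants (general coefficient rings). -/
theorem coeffMap_C' {R S : Type*} [CommRing R] [CommRing S] (f : R →+* S) (x : R) :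
    coeffMap f (HahnSeries.C x : LaurentSeries R) = HahnSeries.C (f x) := by
  rw [HahnSeries.C_apply, HahnSeries.C_apply, coeffMap_single]

/-- The image under `φW` of an integral power of the unit `natUnit hW δ`. -/
theorem φW_natUnit_zpow {N : ℕ} {W : Subring Qb} (hW : IsGoodRing N W) (δ : ℕ) (hδ : δ ∣ N)
    (k : ℤ) : φW W ((natUnit hW δ ^ k : (↥W)ˣ) : ↥W) = (δ : ℂ) ^ k := by
  have h1 : φW W ((natUnit hW δ ^ k : (↥W)ˣ) : ↥W)
      = ((Units.map (φW W : ↥W →* ℂ) (natUnit hW δ ^ k) : ℂˣ) : ℂ) := rfl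
  rw [h1, map_zpow, Units.val_zpow_eq_zpow_val, Units.coe_map]
  congr 1
  exact φW_natUnit hW δ hδ

/-- `coeffMap (φW W)` is injective. -/
theorem coeffMap_φW_injective (W : Subring Qb) : Function.Injective (coeffMap (φW W)) := by
  intro x y h
  apply HahnSeries.ext
  funext k
  have hk : (coeffMap (φW W) x).coeff k = (coeffMap (φW W) y).coeff k := by rw [h]
  rw [coeffMap_coeff, coeffMap_coeff] at hk
  exact φW_injective W hk

/-- The composite `ℤ → W → ℂ` is the canonical map. -/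
theorem φW_comp_intCast (W : Subring Qb) :
    (φW W).comp (Int.castRingHom ↥W) = Int.castRingHom ℂ :=
  RingHom.ext_int _ _

/-- One factor of the product: the `t`-expansion of `(δ^{-12} Δ((a z + b)/δ))^r`. -/
theorem factor_hasTExp {N : ℕ} [NeZero N] {W : Subring Qb} (hW : IsGoodRing N W)
    (a : ℕ) (b : ℤ) (δ : ℕ) (ha : 0 < a) (hδ : 0 < δ) (hδN : δ ∣ N) (r : ℤ) :
    HasTExp N (fun z : ℍ => ((((δ : ℂ)) ^ 12)⁻¹ * discAff a b δ z) ^ r)
      (coeffMap (φW W)
        (HahnSeries.C (((natUnit hW δ ^ (-12 * r) : (↥W)ˣ) : ↥W)) *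
          affSeries (zetaW hW δ ^ b) (a * (N / δ))
            (coeffMap (Int.castRingHom ↥W) (deltaPow r)))) := by
  rw [map_mul, coeffMap_C', φW_natUnit_zpow hW δ hδN]
  have h1 := (HasTExp.const N ((δ : ℂ) ^ (-12 * r))).mul
    (discAff_zpow_hasTExp hW a b δ ha hδ hδN r)
  refine hasTExp_congr h1 (fun z => ?_)
  simp only [Pi.mul_apply]
  rw [mul_zpow]
  congr 1
  rw [zpow_mul, zpow_neg]
  norm_cast

end GExpAux

/-- `G_g` is the `t`-expansion of `z ↦ U(g z)` (from `Ufun_smul`, `discAff_zpow_hasTExp`). -/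
theorem GSeries_hasTExp {N : ℕ} [NeZero N] {W : Subring Qb} (hW : IsGoodRing N W)
    (g : SL(2, ℤ)) :
    HasTExp N (fun z : ℍ => Ufun N (g • z)) (coeffMap (φW W) (GSeries hW g)) := by
  unfold GSeries
  rw [map_prod]
  refine hasTExp_congr (hasTExp_finset_prod N.divisors
    (fun d z => ((((triD d g : ℂ)) ^ 12)⁻¹ * discAff (triA d g) (triB d g) (triD d g) z)
      ^ rExp N d) _ ?_) (fun z => Ufun_smul N g z)
  intro d hd
  have hdN : d ∣ N := Nat.dvd_of_mem_divisors hd
  have hd0 : d ≠ 0 := fun h0 => NeZero.ne N (by simpa [h0] using hdN)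
  have : NeZero d := ⟨hd0⟩
  exact GExpAux.factor_hasTExp hW (triA d g) (triB d g) (triD d g) (triA_pos d g)
    (triD_pos d g) ((triD_dvd d g).trans hdN) (rExp N d)

/-- The level `N` expansion of `U` itself. -/
theorem Ufun_hasTExp {N : ℕ} [NeZero N] (W : Subring Qb) :
    HasTExp N (Ufun N)
      (coeffMap (φW W) (qExpand ↥W N (coeffMap (Int.castRingHom ↥W) (uSeries N)))) := by
  rw [coeffMap_qExpand, coeffMap_coeffMap, GExpAux.φW_comp_intCast]
  exact hasTExp_of_one (Ufun_hasTExp_one N)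

/-- For `g ∈ Γ₀(N)`, `G_g = u(t^N)` (uniqueness of `t`-expansions and `Ufun_smul_Gamma0`). -/
theorem GSeries_of_mem {N : ℕ} [NeZero N] {W : Subring Qb} (hW : IsGoodRing N W)
    (g : SL(2, ℤ)) (hg : g ∈ CongruenceSubgroup.Gamma0 N) :
    GSeries hW g = qExpand ↥W N (coeffMap (Int.castRingHom ↥W) (uSeries N)) := by
  apply GExpAux.coeffMap_φW_injective W
  have h1 : HasTExp N (Ufun N) (coeffMap (φW W) (GSeries hW g)) :=
    hasTExp_congr (GSeries_hasTExp hW g) (fun z => (Ufun_smul_Gamma0 N g hg z).symm)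
  exact h1.unique (Ufun_hasTExp W)

end Fermat.Agent.S28
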