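import Fermat.Agent.S28.Ana.Basic

/-!
# S28, Part A: calculus of leading terms of Laurent series.  INTERFACE (statements frozen).
`LeadsWith G m c` : `G.coeff m = c` and `G.coeff n = 0` for `n < m` (see `Ana/Basic.lean`).
-/

set_option autoImplicit false

noncomputable section

namespace Fermat.Agent.S28

open Fermat.Agent.S24 ModularCurve

section

variable {R : Type*} [CommRing R]

namespace LeadAux

/-- Coefficients of a product below the sum of the vanishing bounds vanish. -/
theorem coeff_mul_of_lt {G G' : LaurentSeries R} {m m' : ℤ}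
    (h : ∀ n : ℤ, n < m → G.coeff n = 0) (h' : ∀ n : ℤ, n < m' → G'.coeff n = 0)
    (n : ℤ) (hn : n < m + m') : (G * G').coeff n = 0 := by
  rw [HahnSeries.coeff_mul]
  apply Finset.sum_eq_zero
  rintro ⟨i, j⟩ hij
  rw [Finset.mem_antidiagonal] at hij
  obtain ⟨-, -, hij⟩ := hij
  simp only at hij ⊢
  by_cases hi : i < m
  · rw [h i hi, zero_mul]
  · rw [h' j (by omega), mul_zero]

/-- The coefficient of a product at the sum of the vanishing bounds. -/
theorem coeff_mul_at {G G' : LaurentSeries R} {m m' : ℤ}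
    (h : ∀ n : ℤ, n < m → G.coeff n = 0) (h' : ∀ n : ℤ, n < m' → G'.coeff n = 0) :
    (G * G').coeff (m + m') = G.coeff m * G'.coeff m' := by
  rw [HahnSeries.coeff_mul]
  refine Finset.sum_eq_single (f := fun ij : ℤ × ℤ => G.coeff ij.1 * G'.coeff ij.2) (m, m') ?_ ?_
  · rintro ⟨i, j⟩ hij hne
    rw [Finset.mem_antidiagonal] at hij
    obtain ⟨-, -, hij⟩ := hij
    simp only at hij ⊢
    by_cases hi : i < m
    · rw [h i hi, zero_mul]
    · by_cases hj : j < m'
      · rw [h' j hj, mul_zero]
      · exfalso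
        apply hne
        have h1 : i = m := by omega
        have h2 : j = m' := by omega
        rw [h1, h2]
  · intro hnot
    rw [Finset.mem_antidiagonal] at hnot
    simp only [HahnSeries.mem_support, ne_eq, and_true, not_and, not_not] at hnot
    by_cases hG : G.coeff m = 0
    · rw [hG, zero_mul]
    · rw [hnot hG, mul_zero]

theorem congr {G : LaurentSeries R} {m m' : ℤ} {c c' : R} (h : LeadsWith G m c)
    (hm : m = m') (hc : c = c') : LeadsWith G m' c' := by
  subst hm; subst hc; exact h

end LeadAux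

theorem leadsWith_one : LeadsWith (1 : LaurentSeries R) 0 1 := by
  refine ⟨?_, fun n hn => ?_⟩
  · rw [HahnSeries.coeff_one, if_pos rfl]
  · rw [HahnSeries.coeff_one, if_neg (ne_of_lt hn)]

theorem leadsWith_C (c : R) : LeadsWith (HahnSeries.C c : LaurentSeries R) 0 c := by
  rw [HahnSeries.C_apply]
  refine ⟨HahnSeries.coeff_single_same 0 c, fun n hn => ?_⟩
  exact HahnSeries.coeff_single_of_ne (ne_of_lt hn)

theorem leadsWith_single (m : ℤ) (c : R) :
    LeadsWith (HahnSeries.single m c : LaurentSeries R) m c := by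
  refine ⟨HahnSeries.coeff_single_same m c, fun n hn => ?_⟩
  exact HahnSeries.coeff_single_of_ne (ne_of_lt hn)

theorem leadsWith_ofPowerSeries (p : PowerSeries R) :
    LeadsWith (HahnSeries.ofPowerSeries ℤ R p) 0 (PowerSeries.constantCoeff p) := by
  refine ⟨?_, fun n hn => ModularCurve.ofPowerSeries_coeff_of_neg p hn⟩
  rw [show (0 : ℤ) = ((0 : ℕ) : ℤ) from rfl, HahnSeries.ofPowerSeries_apply_coeff,
    PowerSeries.coeff_zero_eq_constantCoeff]

theorem LeadsWith.mul {G G' : LaurentSeries R} {m m' : ℤ} {c c' : R}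
    (h : LeadsWith G m c) (h' : LeadsWith G' m' c') : LeadsWith (G * G') (m + m') (c * c') := by
  refine ⟨?_, fun n hn => LeadAux.coeff_mul_of_lt h.2 h'.2 n hn⟩
  rw [LeadAux.coeff_mul_at h.2 h'.2, h.1, h'.1]

theorem LeadsWith.finset_prod {ι : Type*} (s : Finset ι) (G : ι → LaurentSeries R) (m : ι → ℤ)
    (c : ι → R) (h : ∀ i ∈ s, LeadsWith (G i) (m i) (c i)) :
    LeadsWith (∏ i ∈ s, G i) (∑ i ∈ s, m i) (∏ i ∈ s, c i) := by
  classical
  induction s using Finset.induction_on with
  | empty =>
    simp only [Finset.prod_empty, Finset.sum_empty]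
    exact leadsWith_one
  | insert a s ha ih =>
    rw [Finset.prod_insert ha, Finset.sum_insert ha, Finset.prod_insert ha]
    exact (h a (Finset.mem_insert_self a s)).mul
      (ih (fun i hi => h i (Finset.mem_insert_of_mem hi)))

theorem LeadsWith.npow {G : LaurentSeries R} {m : ℤ} {c : R} (h : LeadsWith G m c) (k : ℕ) :
    LeadsWith (G ^ k) ((k : ℤ) * m) (c ^ k) := by
  induction k with
  | zero =>
    rw [pow_zero, pow_zero]
    exact LeadAux.congr leadsWith_one (by simp) rfl
  | succ k ih =>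
    rw [pow_succ, pow_succ]
    exact LeadAux.congr (ih.mul h) (by push_cast; ring) rfl

/-- Change of coefficient ring. -/
theorem LeadsWith.cmap {S : Type*} [CommRing S] (f : R →+* S) {G : LaurentSeries R} {m : ℤ}
    {c : R} (h : LeadsWith G m c) : LeadsWith (coeffMap f G) m (f c) := by
  refine ⟨?_, fun n hn => ?_⟩
  · rw [coeffMap_coeff, h.1]
  · rw [coeffMap_coeff, h.2 n hn, map_zero]

/-- The substitution `q ↦ q^d`. -/
theorem LeadsWith.qexp (d : ℕ) [NeZero d] {G : LaurentSeries R} {m : ℤ} {c : R}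
    (h : LeadsWith G m c) : LeadsWith (qExpand R d G) ((d : ℤ) * m) c := by
  refine ⟨?_, fun n hn => ?_⟩
  · rw [qExpand_coeff_mul, h.1]
  · by_cases hd : (d : ℤ) ∣ n
    · obtain ⟨k, rfl⟩ := hd
      rw [qExpand_coeff_mul]
      apply h.2
      have hdpos : (0 : ℤ) < (d : ℤ) := by exact_mod_cast Nat.pos_of_ne_zero (NeZero.ne d)
      exact lt_of_mul_lt_mul_left hn hdpos.le
    · exact qExpand_coeff_of_not_dvd d G hd

theorem LeadsWith.ne_zero {G : LaurentSeries R} {m : ℤ} {c : R} (h : LeadsWith G m c)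
    (hc : c ≠ 0) : G ≠ 0 := by
  rintro rfl
  apply hc
  rw [← h.1]
  rfl

/-- The leading degree is unique (for nonzero leading coefficients). -/
theorem LeadsWith.deg_unique {G : LaurentSeries R} {m m' : ℤ} {c c' : R} (h : LeadsWith G m c)
    (h' : LeadsWith G m' c') (hc : c ≠ 0) (hc' : c' ≠ 0) : m = m' := by
  rcases lt_trichotomy m m' with hlt | heq | hgt
  · exfalso
    apply hc
    rw [← h.1]
    exact h'.2 m hlt
  · exact heq
  · exfalso
    apply hc'
    rw [← h'.1]
    exact h.2 m' hgt

/-- If `G` leads in positive degree then its coefficients in degrees `≤ 0` vanish. -/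
theorem LeadsWith.coeff_eq_zero_of_le {G : LaurentSeries R} {m : ℤ} {c : R} (h : LeadsWith G m c)
    (hm : 0 < m) (n : ℤ) (hn : n ≤ 0) : G.coeff n = 0 :=
  h.2 n (lt_of_le_of_lt hn hm)

end

end Fermat.Agent.S28
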