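import Fermat.Agent.S28.Ana.TExpExtra

/-!
# S28, Part A: the ring of pairs (holomorphic function, `t`-expansion over `ℚ̄`).
INTERFACE (definitions complete, statements frozen).

`pairRing N ⊆ (ℍ → ℂ) × ℚ̄((t))` consists of the pairs `(f, G)` with `f` holomorphic on `ℍ` and
`f = ∑ φ(G_n) t^n` (`t = e^{2πiz/N}`).  Both projections `pFst`, `pSnd` are injective ring homs, so
identities between functions transfer to identities between formal Laurent series and back.
-/

set_option autoImplicit false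

noncomputable section

namespace Fermat.Agent.S28

open Fermat.Agent.S24 ModularCurve UpperHalfPlane
open scoped MatrixGroups Manifold

/-- `p = (f, G)`: `f` is holomorphic on `ℍ` with `t`-expansion `G` (coefficients in `ℚ̄`). -/
def IsPair (N : ℕ) (p : (ℍ → ℂ) × LaurentSeries Qb) : Prop :=
  MDifferentiable 𝓘(ℂ) 𝓘(ℂ) p.1 ∧ HasTExp N p.1 (coeffMap φ p.2)

/-- The ring of pairs (holomorphic function, `t`-expansion over `ℚ̄`). -/
def pairRing (N : ℕ) [NeZero N] : Subring ((ℍ → ℂ) × LaurentSeries Qb) where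
  carrier := {p | IsPair N p}
  mul_mem' := by
    intro p p' h h'
    refine ⟨h.1.mul h'.1, ?_⟩
    show HasTExp N (p.1 * p'.1) (coeffMap φ (p.2 * p'.2))
    rw [map_mul]
    exact h.2.mul h'.2
  one_mem' := by
    refine ⟨mdifferentiable_const, ?_⟩
    show HasTExp N (fun _ => (1 : ℂ)) (coeffMap φ 1)
    have h := HasTExp.const N (1 : ℂ)
    rw [map_one] at h ⊢
    exact h
  add_mem' := by
    intro p p' h h'
    refine ⟨h.1.add h'.1, ?_⟩
    show HasTExp N (p.1 + p'.1) (coeffMap φ (p.2 + p'.2))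
    rw [map_add]
    exact h.2.add h'.2
  zero_mem' := by
    refine ⟨mdifferentiable_const, ?_⟩
    show HasTExp N (fun _ => (0 : ℂ)) (coeffMap φ 0)
    have h := HasTExp.const N (0 : ℂ)
    rw [map_zero] at h ⊢
    exact h
  neg_mem' := by
    intro p h
    refine ⟨h.1.neg, ?_⟩
    show HasTExp N (-p.1) (coeffMap φ (-p.2))
    rw [map_neg]
    exact h.2.neg

theorem mem_pairRing {N : ℕ} [NeZero N] {p : (ℍ → ℂ) × LaurentSeries Qb} :
    p ∈ pairRing N ↔ IsPair N p := Iff.rfl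

/-- The function of a pair. -/
def pFst (N : ℕ) [NeZero N] : pairRing N →+* (ℍ → ℂ) :=
  (RingHom.fst (ℍ → ℂ) (LaurentSeries Qb)).comp (pairRing N).subtype

/-- The `t`-expansion of a pair. -/
def pSnd (N : ℕ) [NeZero N] : pairRing N →+* LaurentSeries Qb :=
  (RingHom.snd (ℍ → ℂ) (LaurentSeries Qb)).comp (pairRing N).subtype

theorem pFst_mdiff {N : ℕ} [NeZero N] (x : pairRing N) :
    MDifferentiable 𝓘(ℂ) 𝓘(ℂ) (pFst N x) := x.2.1

theorem pFst_hasTExp {N : ℕ} [NeZero N] (x : pairRing N) :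
    HasTExp N (pFst N x) (coeffMap φ (pSnd N x)) := x.2.2

theorem pFst_injective (N : ℕ) [NeZero N] : Function.Injective (pFst N) := by
  rw [injective_iff_map_eq_zero]
  intro x hx
  have h1 : HasTExp N (pFst N x) (coeffMap φ (pSnd N x)) := pFst_hasTExp x
  rw [hx] at h1
  have h0 : HasTExp N (fun _ => (0 : ℂ)) (HahnSeries.C 0) := HasTExp.const N 0
  have h2 : coeffMap φ (pSnd N x) = HahnSeries.C (0 : ℂ) := HasTExp.unique h1 h0
  have h3 : pSnd N x = 0 := by
    apply coeffMap_φ_injective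
    rw [h2, map_zero, map_zero]
  apply Subtype.ext
  exact Prod.ext hx h3

theorem pSnd_injective (N : ℕ) [NeZero N] : Function.Injective (pSnd N) := by
  rw [injective_iff_map_eq_zero]
  intro x hx
  have h1 : HasTExp N (pFst N x) (coeffMap φ (pSnd N x)) := pFst_hasTExp x
  rw [hx, map_zero] at h1
  have h3 : pFst N x = 0 := by
    funext z
    have hz : HasSum (fun n : ℤ => (0 : LaurentSeries ℂ).coeff n * tOf N z ^ n) (pFst N x z) :=
      h1 z
    have h0 : HasSum (fun n : ℤ => (0 : LaurentSeries ℂ).coeff n * tOf N z ^ n) 0 := by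
      have h00 : (fun n : ℤ => (0 : LaurentSeries ℂ).coeff n * tOf N z ^ n) = fun _ => 0 := by
        funext n
        rw [HahnSeries.coeff_zero, zero_mul]
      rw [h00]
      exact hasSum_zero
    exact hz.unique h0
  apply Subtype.ext
  exact Prod.ext h3 hx

/-- The constant pairs `(φ c, c)`. -/
theorem pC_mem (N : ℕ) [NeZero N] (c : Qb) :
    (((Pi.constRingHom ℍ ℂ).comp φ).prod (HahnSeries.C : Qb →+* LaurentSeries Qb)) c ∈
      pairRing N := by
  refine ⟨mdifferentiable_const, ?_⟩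
  show HasTExp N (fun _ => φ c) (coeffMap φ (HahnSeries.C c))
  rw [LevelOneAux.coeffMap_C]
  exact HasTExp.const N (φ c)

/-- The constants `ℚ̄ → pairRing N`, `c ↦ (φ c, c)`. -/
def pC (N : ℕ) [NeZero N] : Qb →+* pairRing N :=
  RingHom.codRestrict
    (((Pi.constRingHom ℍ ℂ).comp φ).prod (HahnSeries.C : Qb →+* LaurentSeries Qb))
    (pairRing N) (pC_mem N)

theorem pFst_pC (N : ℕ) [NeZero N] (c : Qb) (z : ℍ) : pFst N (pC N c) z = φ c := rfl

theorem pSnd_pC (N : ℕ) [NeZero N] (c : Qb) : pSnd N (pC N c) = HahnSeries.C c := rfl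

/-- The pair `(j, j(t^N))`. -/
def pJ (N : ℕ) [NeZero N] : pairRing N :=
  ⟨(Jfun, qExpand Qb N (jqModC Qb)), Jfun_mdiff, hasTExp_Jfun_Qb N⟩

theorem pFst_pJ (N : ℕ) [NeZero N] : pFst N (pJ N) = Jfun := rfl

theorem pSnd_pJ (N : ℕ) [NeZero N] : pSnd N (pJ N) = qExpand Qb N (jqModC Qb) := rfl

/-- The pair of the `g`-conjugate of an element `a` of the coordinate ring `ℚ̄[j(q^d) : d ∣ N]`
(S24): the function is `conjFun N g a : z ↦ a(g⁻¹ z)`. -/
def pConj (N : ℕ) [NeZero N] (g : SL(2, ℤ)) (a : coordRing N) : pairRing N :=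
  ⟨(conjFun N g a, (conjFun_hasTExp N g a).choose), conjFun_mdiff N g a,
    (conjFun_hasTExp N g a).choose_spec⟩

theorem pFst_pConj (N : ℕ) [NeZero N] (g : SL(2, ℤ)) (a : coordRing N) :
    pFst N (pConj N g a) = conjFun N g a := rfl

/-- Evaluation of a two-variable polynomial `c ∈ ℚ̄[Y][X]` at `Y = j`, `X = x`. -/
def pEv (N : ℕ) [NeZero N] (x : pairRing N) : Polynomial (Polynomial Qb) →+* pairRing N :=
  Polynomial.eval₂RingHom (Polynomial.eval₂RingHom (pC N) (pJ N)) x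

theorem pFst_eval₂ (N : ℕ) [NeZero N] (P : Polynomial Qb) (z : ℍ) :
    pFst N (Polynomial.eval₂ (pC N) (pJ N) P) z = Polynomial.eval₂ φ (Jfun z) P := by
  have h := Polynomial.hom_eval₂ P (pC N)
    ((Pi.evalRingHom (fun _ : ℍ => ℂ) z).comp (pFst N)) (pJ N)
  have key : ((Pi.evalRingHom (fun _ : ℍ => ℂ) z).comp (pFst N)).comp (pC N) = φ :=
    RingHom.ext fun c => rfl
  rw [key] at h
  exact h

theorem pSnd_eval₂ (N : ℕ) [NeZero N] (P : Polynomial Qb) :
    pSnd N (Polynomial.eval₂ (pC N) (pJ N) P) =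
      Polynomial.eval₂ (HahnSeries.C : Qb →+* LaurentSeries Qb) (qExpand Qb N (jqModC Qb)) P := by
  have h := Polynomial.hom_eval₂ P (pC N) (pSnd N) (pJ N)
  have key : (pSnd N).comp (pC N) = (HahnSeries.C : Qb →+* LaurentSeries Qb) :=
    RingHom.ext fun c => rfl
  rw [key, pSnd_pJ] at h
  exact h

theorem pSnd_pEv (N : ℕ) [NeZero N] (x : pairRing N) (c : Polynomial (Polynomial Qb)) :
    pSnd N (pEv N x c) = ev2 (qExpand Qb N (jqModC Qb)) (pSnd N x) c := by
  have h := Polynomial.hom_eval₂ c (Polynomial.eval₂RingHom (pC N) (pJ N)) (pSnd N) x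
  have key : (pSnd N).comp (Polynomial.eval₂RingHom (pC N) (pJ N)) =
      Polynomial.eval₂RingHom (HahnSeries.C : Qb →+* LaurentSeries Qb)
        (qExpand Qb N (jqModC Qb)) :=
    RingHom.ext fun P => pSnd_eval₂ N P
  rw [key] at h
  exact h

theorem eval_map_eq_pEv (N : ℕ) [NeZero N] (x : pairRing N) (c : Polynomial (Polynomial Qb)) :
    Polynomial.eval x (c.map (Polynomial.eval₂RingHom (pC N) (pJ N))) = pEv N x c := by
  rw [Polynomial.eval_map]
  rfl

theorem map_map_pSnd (N : ℕ) [NeZero N] (c : Polynomial (Polynomial Qb)) :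
    (c.map (Polynomial.eval₂RingHom (pC N) (pJ N))).map (pSnd N) =
      c.map (Polynomial.eval₂RingHom (HahnSeries.C : Qb →+* LaurentSeries Qb)
        (qExpand Qb N (jqModC Qb))) := by
  rw [Polynomial.map_map]
  congr 1
  exact RingHom.ext fun P => pSnd_eval₂ N P

/-- A pair whose function is `SL₂(ℤ)`-invariant is a polynomial in `j` over `ℚ̄`
(S24 `exists_poly_of_nice_invariant`, `Ana/Degree/CharPoly.lean`). -/
theorem exists_poly_of_pFst_invariant {N : ℕ} [NeZero N] (x : pairRing N)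
    (hinv : ∀ (g : SL(2, ℤ)) (z : ℍ), pFst N x (g • z) = pFst N x z) :
    ∃ P : Polynomial Qb, x = Polynomial.eval₂ (pC N) (pJ N) P := by
  have hnice : pFst N x ∈ niceRing N := ⟨pFst_mdiff x, pSnd N x, pFst_hasTExp x⟩
  obtain ⟨P, hP⟩ := exists_poly_of_nice_invariant N hnice hinv
  refine ⟨P, pFst_injective N ?_⟩
  funext z
  rw [hP z, pFst_eval₂]

/-- A family of pairs indexed by the cosets `SL₂(ℤ)/Γ₀(N)` which is permuted by `SL₂(ℤ)`:
`x_i(ε z) = x_{ε⁻¹ i}(z)`. -/
def IsEquivFam (N : ℕ) [NeZero N] (x : Cosets N → pairRing N) : Prop :=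
  ∀ (ε : SL(2, ℤ)) (i : Cosets N) (z : ℍ), pFst N (x i) (ε • z) = pFst N (x (ε⁻¹ • i)) z

end Fermat.Agent.S28
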