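import Fermat.Agent.S28.Ana.Basic

/-!
# S28, Part A: more calculus of `t`-expansions (`HasTExp`, see S24 `Ana/Defs.lean`, `Ana/TExp.lean`).
INTERFACE (statements frozen).
-/

set_option autoImplicit false

noncomputable section

namespace Fermat.Agent.S28

open Fermat.Agent.S24 ModularCurve UpperHalfPlane
open scoped MatrixGroups Manifold

theorem hasTExp_finset_prod {N : ℕ} [NeZero N] {ι : Type*} (s : Finset ι) (f : ι → ℍ → ℂ)
    (G : ι → LaurentSeries ℂ) (h : ∀ i ∈ s, HasTExp N (f i) (G i)) :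
    HasTExp N (fun z => ∏ i ∈ s, f i z) (∏ i ∈ s, G i) := by
  classical
  induction s using Finset.induction_on with
  | empty =>
    have h1 := HasTExp.const N (1 : ℂ)
    rw [HahnSeries.C_one] at h1
    simp only [Finset.prod_empty]
    exact h1
  | insert a s ha ih =>
    have h1 := (h a (Finset.mem_insert_self a s)).mul
      (ih fun i hi => h i (Finset.mem_insert_of_mem hi))
    have hfun : (fun z => ∏ i ∈ insert a s, f i z) = f a * fun z => ∏ i ∈ s, f i z := by
      funext z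
      rw [Finset.prod_insert ha]
      rfl
    rw [hfun, Finset.prod_insert ha]
    exact h1

/-- Substitution `q ↦ q^d` in a convergent Laurent expansion. -/
theorem hasSum_qExpand {F : LaurentSeries ℂ} (d : ℕ) [NeZero d] {t s : ℂ} (ht : t ≠ 0)
    (h : HasSum (fun n : ℤ => F.coeff n * (t ^ d) ^ n) s) :
    HasSum (fun n : ℤ => (qExpand ℂ d F).coeff n * t ^ n) s := by
  have _ht := ht
  have hd : (d : ℤ) ≠ 0 := Int.natCast_ne_zero.mpr (NeZero.ne d)
  have hinj : Function.Injective (fun k : ℤ => (d : ℤ) * k) := mul_right_injective₀ hd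
  have hzero : ∀ n : ℤ, n ∉ Set.range (fun k : ℤ => (d : ℤ) * k) →
      (qExpand ℂ d F).coeff n * t ^ n = 0 := by
    intro n hn
    have hnd : ¬ (d : ℤ) ∣ n := by
      rintro ⟨k, rfl⟩
      exact hn ⟨k, rfl⟩
    rw [qExpand_coeff_of_not_dvd d F hnd, zero_mul]
  rw [← hinj.hasSum_iff hzero]
  have hfun : ((fun n : ℤ => (qExpand ℂ d F).coeff n * t ^ n) ∘ fun k : ℤ => (d : ℤ) * k) =
      fun k : ℤ => F.coeff k * (t ^ d) ^ k := by
    funext k
    show (qExpand ℂ d F).coeff ((d : ℤ) * k) * t ^ ((d : ℤ) * k) = _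
    rw [qExpand_coeff_mul, zpow_mul, zpow_natCast]
  rw [hfun]
  exact h

/-- A `q`-expansion is a `t`-expansion (`q = t^N`). -/
theorem hasTExp_of_one {N : ℕ} [NeZero N] {f : ℍ → ℂ} {G : LaurentSeries ℂ}
    (h : HasTExp 1 f G) : HasTExp N f (qExpand ℂ N G) := by
  intro z
  refine hasSum_qExpand N (tOf_ne_zero N z) ?_
  have h1 := h z
  rw [tOf_one] at h1
  rw [tOf_pow N z]
  exact h1

/-- A function is determined by its `t`-expansion. -/
theorem hasTExp_fun_unique {N : ℕ} {f f' : ℍ → ℂ} {G : LaurentSeries ℂ}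
    (h : HasTExp N f G) (h' : HasTExp N f' G) : f = f' :=
  funext fun z => (h z).unique (h' z)

/-- `HasTExp` only depends on the values of the function. -/
theorem hasTExp_congr {N : ℕ} {f f' : ℍ → ℂ} {G : LaurentSeries ℂ}
    (h : HasTExp N f G) (hf : ∀ z, f' z = f z) : HasTExp N f' G := by
  intro z
  rw [hf z]
  exact h z

/-- The `t`-expansion of `j` over `ℚ̄`: `j(t^N)`. -/
theorem hasTExp_Jfun_Qb (N : ℕ) [NeZero N] :
    HasTExp N Jfun (coeffMap φ (qExpand Qb N (jqModC Qb))) := by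
  have h := hasTExp_Jfun N
  have heq : jT N = coeffMap φ (qExpand Qb N (jqModC Qb)) := by
    unfold jT coeffEmb
    rw [coeffMap_qExpand (algebraMap ℚ Qb) N jq, ← jqModC_rat, coeffMap_jqModC]
  rw [← heq]
  exact h

/-- The `q`-expansion of `j(dz)`: `j(q^d)`. -/
theorem hasTExp_Jfun_dmul_Qb (N d : ℕ) [NeZero N] [NeZero d] :
    HasTExp N (fun z : ℍ => Jfun (dmul d z))
      (coeffMap φ (qExpand Qb N (qExpand Qb d (jqModC Qb)))) := by
  -- first the `q`-expansion
  have h1 : HasTExp 1 (fun z : ℍ => Jfun (dmul d z))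
      (qExpand ℂ d (coeffMap φ (jqModC Qb))) := by
    intro z
    rw [tOf_one]
    refine hasSum_qExpand d (qOf_ne_zero z) ?_
    have h2 := hasTExp_Jfun_Qb 1 (dmul d z)
    rw [qExpand_one_apply, tOf_one, qOf_dmul] at h2
    exact h2
  have h3 := hasTExp_of_one (N := N) h1
  rw [coeffMap_qExpand, coeffMap_qExpand]
  exact h3

end Fermat.Agent.S28
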