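import Fermat.Agent.S28.Ana.DeltaSum
import Fermat.Agent.S28.Ana.TExpExtra

/-!
# S28, Part A: the eta-quotient `U(z) = ∏_{d ∣ N} Δ(dz)^{r_d}` and its `q`-expansion.
INTERFACE (definitions complete, statements frozen).
-/

set_option autoImplicit false

noncomputable section

namespace Fermat.Agent.S28

open Fermat.Agent.S24 ModularCurve UpperHalfPlane
open scoped MatrixGroups Manifold

/-- `z ↦ d z` on `ℍ`, total in `d` (the identity for `d = 0`). -/
def dmulT (d : ℕ) (z : ℍ) : ℍ := if h : d = 0 then z else haveI : NeZero d := ⟨h⟩; dmul d z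

theorem dmulT_eq (d : ℕ) [NeZero d] (z : ℍ) : dmulT d z = dmul d z := dif_neg (NeZero.ne d)

/-- The eta-quotient `U(z) = ∏_{d ∣ N} Δ(dz)^{r_d}`. -/
def Ufun (N : ℕ) (z : ℍ) : ℂ :=
  ∏ d ∈ N.divisors, ModularForm.discriminant (dmulT d z) ^ rExp N d

/-- `z ↦ Δ(dz)` is holomorphic. -/
theorem disc_dmul_mdiff (d : ℕ) [NeZero d] :
    MDifferentiable 𝓘(ℂ) 𝓘(ℂ) (fun z : ℍ => ModularForm.discriminant (dmul d z)) := by
  rw [UpperHalfPlane.mdifferentiable_iff]
  have hJ : DifferentiableOn ℂ ((fun z : ℍ => ModularForm.discriminant z) ∘ ofComplex)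
      {z : ℂ | 0 < z.im} :=
    UpperHalfPlane.mdifferentiable_iff.mp disc_mdiff
  have hd : (0 : ℝ) < d := by exact_mod_cast Nat.pos_of_ne_zero (NeZero.ne d)
  have hmaps : Set.MapsTo (fun w : ℂ => (d : ℂ) * w) {z : ℂ | 0 < z.im} {z : ℂ | 0 < z.im} := by
    intro w hw
    have hw' : 0 < w.im := hw
    show 0 < ((d : ℂ) * w).im
    simpa using mul_pos hd hw'
  have hcomp : DifferentiableOn ℂ
      (((fun z : ℍ => ModularForm.discriminant z) ∘ ofComplex) ∘ fun w : ℂ => (d : ℂ) * w)
      {z : ℂ | 0 < z.im} :=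
    hJ.comp (differentiableOn_id.const_mul (d : ℂ)) hmaps
  refine hcomp.congr ?_
  intro w hw
  have hw' : 0 < w.im := hw
  have hdw : 0 < ((d : ℂ) * w).im := hmaps hw
  show ModularForm.discriminant (dmul d (ofComplex w)) =
    ModularForm.discriminant (ofComplex ((d : ℂ) * w))
  congr 1
  apply UpperHalfPlane.ext
  rw [coe_dmul, ofComplex_apply_of_im_pos hw', ofComplex_apply_of_im_pos hdw]

theorem Ufun_mdiff (N : ℕ) : MDifferentiable 𝓘(ℂ) 𝓘(ℂ) (Ufun N) := by
  rw [UpperHalfPlane.mdifferentiable_iff]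
  have hprod : DifferentiableOn ℂ
      (fun w : ℂ => ∏ d ∈ N.divisors,
        ModularForm.discriminant (dmulT d (ofComplex w)) ^ rExp N d) {z : ℂ | 0 < z.im} := by
    refine DifferentiableOn.fun_finsetProd fun d hd => ?_
    have : NeZero d := ⟨(Nat.pos_of_mem_divisors hd).ne'⟩
    have h1 : DifferentiableOn ℂ
        ((fun z : ℍ => ModularForm.discriminant (dmul d z)) ∘ ofComplex) {z : ℂ | 0 < z.im} :=
      UpperHalfPlane.mdifferentiable_iff.mp (disc_dmul_mdiff d)
    have h2 : DifferentiableOn ℂ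
        (fun w : ℂ => ((fun z : ℍ => ModularForm.discriminant (dmul d z)) ∘ ofComplex) w ^
          rExp N d) {z : ℂ | 0 < z.im} :=
      h1.zpow (Or.inl fun w _ => ModularForm.discriminant_ne_zero _)
    refine h2.congr ?_
    intro w _
    show ModularForm.discriminant (dmulT d (ofComplex w)) ^ rExp N d =
      ModularForm.discriminant (dmul d (ofComplex w)) ^ rExp N d
    rw [dmulT_eq]
  exact hprod

theorem Ufun_ne_zero (N : ℕ) (z : ℍ) : Ufun N z ≠ 0 := by
  unfold Ufun
  exact Finset.prod_ne_zero_iff.mpr fun d _ =>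
    zpow_ne_zero _ (ModularForm.discriminant_ne_zero _)

/-- The `q`-expansion of `Δ(dz)^r`. -/
theorem disc_dmul_zpow_hasTExp (d : ℕ) [NeZero d] (r : ℤ) :
    HasTExp 1 (fun z : ℍ => ModularForm.discriminant (dmul d z) ^ r)
      (coeffMap (Int.castRingHom ℂ) (qExpand ℤ d (deltaPow r))) := by
  intro z
  show HasSum (fun n : ℤ =>
    (coeffMap (Int.castRingHom ℂ) (qExpand ℤ d (deltaPow r))).coeff n * tOf 1 z ^ n)
    (ModularForm.discriminant (dmul d z) ^ r)
  rw [coeffMap_qExpand, tOf_one]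
  refine hasSum_qExpand d (qOf_ne_zero z) ?_
  have h := deltaPow_hasSum' r (dmul d z)
  rw [qOf_dmul] at h
  exact h

/-- The `q`-expansion of `U` is the formal eta-quotient. -/
theorem Ufun_hasTExp_one (N : ℕ) [NeZero N] :
    HasTExp 1 (Ufun N) (coeffMap (Int.castRingHom ℂ) (uSeries N)) := by
  unfold uSeries
  rw [map_prod]
  have h := hasTExp_finset_prod (N := 1) N.divisors
    (fun d z => ModularForm.discriminant (dmulT d z) ^ rExp N d)
    (fun d => coeffMap (Int.castRingHom ℂ) (qSub ℤ d (deltaPow (rExp N d)))) (by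
      intro d hd
      have : NeZero d := ⟨(Nat.pos_of_mem_divisors hd).ne'⟩
      have h := disc_dmul_zpow_hasTExp d (rExp N d)
      rw [qSub_eq]
      intro z
      show HasSum (fun n : ℤ =>
        (coeffMap (Int.castRingHom ℂ) (qExpand ℤ d (deltaPow (rExp N d)))).coeff n *
          tOf 1 z ^ n) (ModularForm.discriminant (dmulT d z) ^ rExp N d)
      rw [dmulT_eq]
      exact h z)
  exact h

end Fermat.Agent.S28
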