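import Fermat.Agent.S28.Ana.Ring
import Fermat.Agent.S28.Ana.GExp

/-!
# S28, Part A: the pairs of the conjugates of the eta-quotient `U` and of `j(dz)`.
INTERFACE (definitions complete, statements frozen).
-/

set_option autoImplicit false

noncomputable section

namespace Fermat.Agent.S28

open Fermat.Agent.S24 ModularCurve UpperHalfPlane
open scoped MatrixGroups Manifold

theorem pU_mem {N : ℕ} [NeZero N] {W : Subring Qb} (hW : IsGoodRing N W) (g : SL(2, ℤ)) :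
    IsPair N (fun z : ℍ => Ufun N (g • z), coeffMap W.subtype (GSeries hW g)) := by
  refine ⟨Ufun_smul_mdiff N g, ?_⟩
  show HasTExp N (fun z : ℍ => Ufun N (g • z)) (coeffMap φ (coeffMap W.subtype (GSeries hW g)))
  rw [coeffMap_coeffMap]
  exact GSeries_hasTExp hW g

/-- The pair `(z ↦ U(g z), G_g)`. -/
def pU {N : ℕ} [NeZero N] {W : Subring Qb} (hW : IsGoodRing N W) (g : SL(2, ℤ)) : pairRing N :=
  ⟨(fun z : ℍ => Ufun N (g • z), coeffMap W.subtype (GSeries hW g)), pU_mem hW g⟩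

theorem pFst_pU {N : ℕ} [NeZero N] {W : Subring Qb} (hW : IsGoodRing N W) (g : SL(2, ℤ))
    (z : ℍ) : pFst N (pU hW g) z = Ufun N (g • z) := rfl

theorem pSnd_pU {N : ℕ} [NeZero N] {W : Subring Qb} (hW : IsGoodRing N W) (g : SL(2, ℤ)) :
    pSnd N (pU hW g) = coeffMap W.subtype (GSeries hW g) := rfl

/-- The conjugates of `U`: `x_i = (z ↦ U(g_i⁻¹ z), G_{g_i⁻¹})`, `g_i` the chosen representative
of the coset `i`. -/
def xFam {N : ℕ} [NeZero N] {W : Subring Qb} (hW : IsGoodRing N W) : Cosets N → pairRing N :=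
  fun i => pU hW (Quotient.out i)⁻¹

/-- The generator `j(q^d)` (`d ∣ N`) of the coordinate ring `ℚ̄[j(q^d) : d ∣ N]` of S24. -/
def jdCoord (N d : ℕ) [NeZero d] (hd : d ∣ N) : coordRing N :=
  ⟨jd N d hd, Algebra.subset_adjoin ⟨d, inferInstance, hd, rfl⟩⟩

/-- The conjugates of `j(dz)`: `y_i = z ↦ j(d g_i⁻¹ z)`. -/
def yFam (N d : ℕ) [NeZero N] [NeZero d] (hd : d ∣ N) : Cosets N → pairRing N :=
  fun i => pConj N (Quotient.out i) (jdCoord N d hd)

/-- `x_i(ε z) = x_{ε⁻¹ i}(z)` (from `Ufun_smul_Gamma0`). -/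
theorem xFam_equiv {N : ℕ} [NeZero N] {W : Subring Qb} (hW : IsGoodRing N W) :
    IsEquivFam N (xFam hW) := by
  intro ε i z
  show Ufun N ((Quotient.out i)⁻¹ • ε • z) = Ufun N ((Quotient.out (ε⁻¹ • i))⁻¹ • z)
  have h1 : ε⁻¹ • i = (QuotientGroup.mk (ε⁻¹ * Quotient.out i) : Cosets N) := by
    conv_lhs => rw [← QuotientGroup.out_eq' i]
    rfl
  obtain ⟨h, hh⟩ := QuotientGroup.mk_out_eq_mul (CongruenceSubgroup.Gamma0 N)
    (ε⁻¹ * Quotient.out i)
  rw [h1, hh]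
  have h2 : (ε⁻¹ * Quotient.out i * (h : SL(2, ℤ)))⁻¹ • z =
      (h : SL(2, ℤ))⁻¹ • ((Quotient.out i)⁻¹ • ε • z) := by
    rw [mul_inv_rev, mul_inv_rev, inv_inv, mul_smul, mul_smul]
  rw [h2, Ufun_smul_Gamma0 N _ (inv_mem h.2)]

/-- `y_i(ε z) = y_{ε⁻¹ i}(z)` (S24 `CharPolyAux.conjFun_out_smul`). -/
theorem yFam_equiv (N d : ℕ) [NeZero N] [NeZero d] (hd : d ∣ N) : IsEquivFam N (yFam N d hd) := by
  intro ε i z
  exact CharPolyAux.conjFun_out_smul N ε i (jdCoord N d hd) z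

theorem pSnd_xFam {N : ℕ} [NeZero N] {W : Subring Qb} (hW : IsGoodRing N W) (i : Cosets N) :
    pSnd N (xFam hW i) = coeffMap W.subtype (GSeries hW (Quotient.out i)⁻¹) := rfl

/-- The expansion of `x_{i₀}` (`i₀` the identity coset) is `u(t^N)`. -/
theorem pSnd_xFam_coset0 {N : ℕ} [NeZero N] {W : Subring Qb} (hW : IsGoodRing N W) :
    pSnd N (xFam hW (coset0 N)) = qExpand Qb N (coeffMap (Int.castRingHom Qb) (uSeries N)) := by
  rw [pSnd_xFam, GSeries_of_mem hW _ (inv_mem (out_coset0_mem N)), coeffMap_qExpand,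
    coeffMap_coeffMap]
  have h : (W.subtype).comp (Int.castRingHom ↥W) = Int.castRingHom Qb := RingHom.ext_int _ _
  rw [h]

/-- The expansion of `y_{i₀}` (`i₀` the identity coset) is `j(t^{Nd})`. -/
theorem pSnd_yFam_coset0 (N d : ℕ) [NeZero N] [NeZero d] (hd : d ∣ N) :
    pSnd N (yFam N d hd (coset0 N)) = qExpand Qb N (qExpand Qb d (jqModC Qb)) := by
  have hfun : pFst N (yFam N d hd (coset0 N)) = fun z : ℍ => Jfun (dmul d z) := by
    show conjFun N (Quotient.out (coset0 N)) (jdCoord N d hd) = _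
    have h1 := conjFun_mul_right N 1 _ (out_coset0_mem N) (jdCoord N d hd)
    rw [one_mul] at h1
    rw [h1]
    funext z
    show evFun ((jd N d hd : FN N) : LaurentSeries Qb) ((1 : SL(2, ℤ))⁻¹ • z) = _
    rw [evFun_jd, inv_one, one_smul]
  have h2 := pFst_hasTExp (yFam N d hd (coset0 N))
  rw [hfun] at h2
  exact coeffMap_φ_injective (h2.unique (hasTExp_Jfun_dmul_Qb N d))

end Fermat.Agent.S28
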