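import Fermat.Agent.S28.Ana.UFun
import Fermat.Agent.S28.Ana.Triangular
import Fermat.Agent.S28.Ana.Arith

/-!
# S28, Part A: the transformation of the eta-quotient `U` under `SL₂(ℤ)`.
INTERFACE (definitions complete, statements frozen).

`U(g z) = ∏_{d ∣ N} (δ_d^{-12} Δ((a_d z + b_d)/δ_d))^{r_d}` (the automorphy factors cancel because
`∑ r_d = 0`), and `U(γ z) = U(z)` for `γ ∈ Γ₀(N)`.
-/

set_option autoImplicit false

noncomputable section

namespace Fermat.Agent.S28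

open Fermat.Agent.S24 ModularCurve UpperHalfPlane
open scoped MatrixGroups Manifold

/-- The translation `b_d` of `exists_disc_dmul_smul` (chosen; `0` for `d = 0`). -/
def triB (d : ℕ) (g : SL(2, ℤ)) : ℤ :=
  if h : d = 0 then 0 else haveI : NeZero d := ⟨h⟩; (exists_disc_dmul_smul d g).choose

theorem triB_spec (d : ℕ) [NeZero d] (g : SL(2, ℤ)) (z : ℍ) :
    ModularForm.discriminant (dmul d (g • z)) =
      ((((g 1 0 : ℤ) : ℂ) * (z : ℂ) + ((g 1 1 : ℤ) : ℂ)) / (triD d g : ℂ)) ^ 12 *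
        discAff (triA d g) (triB d g) (triD d g) z := by
  have h : triB d g = (exists_disc_dmul_smul d g).choose := by
    unfold triB
    rw [dif_neg (NeZero.ne d)]
  rw [h]
  exact (exists_disc_dmul_smul d g).choose_spec z

namespace USmulAux

/-- A finite product of integer powers of a fixed nonzero number. -/
theorem prod_zpow_eq_zpow_sum {ι : Type*} (s : Finset ι) (f : ι → ℤ) {x : ℂ} (hx : x ≠ 0) :
    ∏ i ∈ s, x ^ f i = x ^ ∑ i ∈ s, f i := by
  classical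
  induction s using Finset.induction_on with
  | empty => simp
  | insert a s ha ih => rw [Finset.prod_insert ha, Finset.sum_insert ha, ih, zpow_add₀ hx]

end USmulAux

/-- `U(g z) = ∏_{d ∣ N} (δ_d^{-12} Δ((a_d z + b_d)/δ_d))^{r_d}`. -/
theorem Ufun_smul (N : ℕ) [NeZero N] (g : SL(2, ℤ)) (z : ℍ) :
    Ufun N (g • z) = ∏ d ∈ N.divisors,
      ((((triD d g : ℂ)) ^ 12)⁻¹ * discAff (triA d g) (triB d g) (triD d g) z) ^ rExp N d := by
  have hx : (((g 1 0 : ℤ) : ℂ) * (z : ℂ) + ((g 1 1 : ℤ) : ℂ)) ^ 12 ≠ 0 :=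
    pow_ne_zero 12 (JBasic.cz_add_d_ne_zero g z)
  have hterm : ∀ d ∈ N.divisors, ModularForm.discriminant (dmulT d (g • z)) ^ rExp N d =
      ((((g 1 0 : ℤ) : ℂ) * (z : ℂ) + ((g 1 1 : ℤ) : ℂ)) ^ 12) ^ rExp N d *
        ((((triD d g : ℂ)) ^ 12)⁻¹ * discAff (triA d g) (triB d g) (triD d g) z) ^ rExp N d := by
    intro d hd
    have : NeZero d := ⟨(Nat.pos_of_mem_divisors hd).ne'⟩
    rw [dmulT_eq, triB_spec, ← mul_zpow, div_pow, div_eq_mul_inv, mul_assoc]
  unfold Ufun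
  rw [Finset.prod_congr rfl hterm, Finset.prod_mul_distrib,
    USmulAux.prod_zpow_eq_zpow_sum _ _ hx, sum_rExp, zpow_zero, one_mul]

/-- `U` is invariant under `Γ₀(N)`. -/
theorem Ufun_smul_Gamma0 (N : ℕ) [NeZero N] (g : SL(2, ℤ))
    (hg : g ∈ CongruenceSubgroup.Gamma0 N) (z : ℍ) : Ufun N (g • z) = Ufun N z := by
  rw [Ufun_smul]
  unfold Ufun
  refine Finset.prod_congr rfl fun d hd => ?_
  have : NeZero d := ⟨(Nat.pos_of_mem_divisors hd).ne'⟩
  have hdN : d ∣ N := Nat.dvd_of_mem_divisors hd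
  rw [triD_of_mem N d hdN g hg, triA_of_mem N d hdN g hg, discAff_one, dmulT_eq, Nat.cast_one,
    one_pow, inv_one, one_mul]

/-- `z ↦ U(g z)` is holomorphic. -/
theorem Ufun_smul_mdiff (N : ℕ) [NeZero N] (g : SL(2, ℤ)) :
    MDifferentiable 𝓘(ℂ) 𝓘(ℂ) (fun z : ℍ => Ufun N (g • z)) :=
  mdiff_comp_smul g (Ufun_mdiff N)

end Fermat.Agent.S28
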